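/-
S55 / 47d-PLACE-COUNT (helper50): dictionary between the primes of `𝓞 L` above a rational prime
`q` (Mathlib `HeightOneSpectrum (𝓞 L)`) and the place-free semilocal model of helper73
(`Idele73.Basic`: `iotaL q L : L → PadicAlgCl q`, `locHom q L : Gal(PadicAlgCl q/ℚ_q) → Gal(L/ℚ)`).

* `primeOf q L j` (`j : L →+* PadicAlgCl q` any embedding): the prime `{x | ‖j x‖ < 1}` of `𝓞 L`;
  `valuation_primeOf_le_one_iff` etc.: its adic valuation versus the norm of `j x`;
  `norm_eq_zpow_of_valuation_eq` : `‖j x‖ = ‖j π‖ ^ n` if `v(π) = exp (-1)`, `v(x) = exp (-n)`;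
* `basePrime q L = primeOf q L (emb q L)`, `emb q L = iotaL q L` the chosen embedding;
* `primeAt q L g` (`g ∈ Gal(L/ℚ)`): the prime `{x | ‖ι (g x)‖ < 1}`; every prime above `q` is of
  this form (`exists_primeAt_eq`), and `primeAt g = primeAt g'` iff `g' g⁻¹` lies in the
  decomposition group `range (locHom q L)` (`primeAt_eq_primeAt_iff`);
* `forall_valuation_eq_one_iff` : `x ∈ Lˣ` is a unit at all primes above `q` iff `‖ι (g x)‖ = 1`
  for all `g`.
Complete proofs.
-/
import Mathlib
import Fermat.Prelude.Def_GaloisRep_CompletionBridge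
import Fermat.Agent.S55.Idele73.Basic
import Fermat.Agent.S55.ProfinLoc80.Decomp

set_option autoImplicit false

open scoped NNReal Pointwise
open IsDedekindDomain NumberField

noncomputable section

namespace Fermat.Agent.S55.PlaceCount50

open Fermat.Agent.S55.Idele73.Basic

variable (q : ℕ) [Fact q.Prime] (L : IntermediateField ℚ Qbar)

/-! ### norms of integral elements -/

/-- elements integral over `ℤ` have norm `≤ 1`. -/
lemma norm_le_one_of_isIntegral {y : PadicAlgCl q} (hy : IsIntegral ℤ y) : ‖y‖ ≤ 1 := by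
  have h1 : IsIntegral (padicIntegers q) y := hy.tower_top
  obtain ⟨z, hz⟩ := IsIntegrallyClosed.isIntegral_iff.mp h1
  rw [← hz]
  have := z.2
  rw [mem_padicIntegers_iff] at this
  exact_mod_cast this

lemma norm_natCast_q_lt_one : ‖(q : PadicAlgCl q)‖ < 1 := by
  rw [ProfinLoc80.norm_natCast_q]
  exact inv_lt_one_of_one_lt₀ (ProfinLoc80.one_lt_q q)

/-! ### the prime of `𝓞 L` attached to an embedding `j : L → PadicAlgCl q` -/

section general

variable {q L}
variable (j : L →+* PadicAlgCl q)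

/-- the ring hom `𝓞 L → PadicAlgCl q` induced by `j`. -/
def intHom : 𝓞 L →+* PadicAlgCl q := j.comp (algebraMap (𝓞 L) L)

lemma intHom_apply (x : 𝓞 L) : intHom j x = j (x : L) := rfl

lemma norm_intHom_le_one (x : 𝓞 L) : ‖intHom j x‖ ≤ 1 :=
  norm_le_one_of_isIntegral q ((RingOfIntegers.isIntegral x).map (intHom j).toIntAlgHom)

lemma norm_le_one_of_int (x : 𝓞 L) : ‖j (x : L)‖ ≤ 1 := norm_intHom_le_one j x

/-- the prime ideal `{x ∈ 𝓞 L | ‖j x‖ < 1}`. -/
def idealOf : Ideal (𝓞 L) where
  carrier := {x | ‖intHom j x‖ < 1}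
  zero_mem' := by simp
  add_mem' := fun {a b} ha hb => by
    simp only [Set.mem_ofPred_eq] at ha hb ⊢
    rw [map_add]
    exact lt_of_le_of_lt (IsUltrametricDist.norm_add_le_max _ _) (max_lt ha hb)
  smul_mem' := fun c x hx => by
    simp only [Set.mem_ofPred_eq, smul_eq_mul, map_mul, norm_mul] at hx ⊢
    calc ‖intHom j c‖ * ‖intHom j x‖ ≤ 1 * ‖intHom j x‖ :=
          mul_le_mul_of_nonneg_right (norm_intHom_le_one j c) (norm_nonneg _)
      _ < 1 := by rwa [one_mul]

lemma mem_idealOf_iff (x : 𝓞 L) : x ∈ idealOf j ↔ ‖j (x : L)‖ < 1 := Iff.rfl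

lemma mem_idealOf_iff' (x : 𝓞 L) : x ∈ idealOf j ↔ ‖intHom j x‖ < 1 := Iff.rfl

lemma natCast_mem_idealOf : (q : 𝓞 L) ∈ idealOf j := by
  rw [mem_idealOf_iff', map_natCast]
  exact norm_natCast_q_lt_one q

instance idealOf_isPrime : (idealOf j).IsPrime where
  ne_top' := by
    rw [Ne, Ideal.eq_top_iff_one, mem_idealOf_iff', map_one, norm_one]
    exact lt_irrefl 1
  mem_or_mem' := fun {x y} h => by
    rw [mem_idealOf_iff', map_mul, norm_mul] at h
    by_contra hcon
    rw [not_or, mem_idealOf_iff', mem_idealOf_iff', not_lt, not_lt] at hcon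
    exact absurd h (not_lt.mpr (one_le_mul_of_one_le_of_one_le hcon.1 hcon.2))

lemma idealOf_ne_bot : idealOf j ≠ ⊥ := by
  intro h
  have := natCast_mem_idealOf j
  rw [h, Ideal.mem_bot] at this
  have hq : (q : 𝓞 L) ≠ 0 := Nat.cast_ne_zero.mpr (Fact.out : q.Prime).ne_zero
  exact hq this

variable (q L) in
/-- the prime `{x | ‖j x‖ < 1}` of `𝓞 L`, as a point of the height one spectrum. -/
def primeOf : HeightOneSpectrum (𝓞 L) := ⟨idealOf j, inferInstance, idealOf_ne_bot j⟩

lemma mem_primeOf_iff (x : 𝓞 L) : x ∈ (primeOf q L j).asIdeal ↔ ‖j (x : L)‖ < 1 := Iff.rfl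

lemma natCast_mem_primeOf : (q : 𝓞 L) ∈ (primeOf q L j).asIdeal := natCast_mem_idealOf j

lemma norm_eq_one_of_notMem {d : 𝓞 L} (hd : d ∉ (primeOf q L j).asIdeal) : ‖j (d : L)‖ = 1 := by
  rw [mem_primeOf_iff, not_lt] at hd
  exact le_antisymm (norm_le_one_of_int j d) hd

/-- the valuation subring `{x ∈ L | ‖j x‖ ≤ 1}`. -/
def valSubOf : ValuationSubring L := (padicIntegers q).comap j

lemma mem_valSubOf_iff (x : L) : x ∈ valSubOf j ↔ ‖j x‖ ≤ 1 := by
  rw [valSubOf, ValuationSubring.mem_comap, mem_padicIntegers_iff, ← NNReal.coe_le_coe]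
  rfl

variable [FiniteDimensional ℚ L]

variable (L) in
instance numberField : NumberField L where
  to_charZero := inferInstance
  to_finiteDimensional := inferInstance

/-- the valuation ring of the adic valuation at `primeOf q L j` is `{x | ‖j x‖ ≤ 1}`. -/
theorem valuationSubring_primeOf :
    ((primeOf q L j).valuation L).valuationSubring = valSubOf j := by
  rw [← HeightOneSpectrum.valuationSubringAtPrime_eq_valuationSubring]
  apply ValuationSubring.eq_of_le_of_ne_top
  · intro x hx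
    have hv : (primeOf q L j).valuation L x ≤ 1 :=
      HeightOneSpectrum.valuationSubringAtPrime_le_valuation (primeOf q L j) hx
    obtain ⟨n, d, hnd⟩ :=
      HeightOneSpectrum.exists_primeCompl_mul_eq_of_integer (primeOf q L j) x hv
    rw [mem_valSubOf_iff]
    have h1 : ‖j x‖ * ‖j ((d : 𝓞 L) : L)‖ = ‖j (n : L)‖ := by
      rw [← norm_mul, ← map_mul]
      exact congrArg (fun t => ‖j t‖) hnd
    rw [norm_eq_one_of_notMem j d.2, mul_one] at h1
    rw [h1]
    exact norm_le_one_of_int j n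
  · intro htop
    have : ((q : L))⁻¹ ∈ valSubOf j := by rw [htop]; trivial
    rw [mem_valSubOf_iff, map_inv₀, map_natCast, norm_inv] at this
    have h2 := norm_natCast_q_lt_one q
    have h3 : 0 < ‖(q : PadicAlgCl q)‖ := by
      rw [norm_pos_iff]
      exact Nat.cast_ne_zero.mpr (Fact.out : q.Prime).ne_zero
    exact absurd this (not_le.mpr (one_lt_inv_iff₀.mpr ⟨h3, h2⟩))

theorem valuation_primeOf_le_one_iff (x : L) :
    (primeOf q L j).valuation L x ≤ 1 ↔ ‖j x‖ ≤ 1 := by
  rw [← mem_valSubOf_iff, ← valuationSubring_primeOf, Valuation.mem_valuationSubring_iff]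

theorem valuation_primeOf_lt_one_iff (x : L) :
    (primeOf q L j).valuation L x < 1 ↔ ‖j x‖ < 1 := by
  by_cases hx : x = 0
  · simp [hx]
  · have h := valuation_primeOf_le_one_iff j x⁻¹
    rw [map_inv₀, map_inv₀, norm_inv] at h
    have hv : 0 < (primeOf q L j).valuation L x :=
      zero_lt_iff.mpr ((Valuation.ne_zero_iff _).mpr hx)
    have hn : 0 < ‖j x‖ := norm_pos_iff.mpr ((map_ne_zero _).mpr hx)
    rw [inv_le_one₀ hv, inv_le_one₀ hn] at h
    constructor
    · intro h1
      by_contra h2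
      rw [not_lt] at h2
      exact absurd (h.mpr h2) (not_le.mpr h1)
    · intro h1
      by_contra h2
      rw [not_lt] at h2
      exact absurd (h.mp h2) (not_le.mpr h1)

theorem valuation_primeOf_eq_one_iff (x : L) :
    (primeOf q L j).valuation L x = 1 ↔ ‖j x‖ = 1 := by
  constructor
  · intro h
    refine le_antisymm ((valuation_primeOf_le_one_iff j x).mp h.le) ?_
    by_contra h2
    rw [not_le] at h2
    exact absurd ((valuation_primeOf_lt_one_iff j x).mpr h2) (not_lt.mpr h.ge)
  · intro h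
    refine le_antisymm ((valuation_primeOf_le_one_iff j x).mpr h.le) ?_
    by_contra h2
    rw [not_le] at h2
    exact absurd ((valuation_primeOf_lt_one_iff j x).mp h2) (not_lt.mpr h.ge)

/-- two embeddings define the same prime iff they have the same unit ball. -/
theorem primeOf_eq_iff (j j' : L →+* PadicAlgCl q) :
    primeOf q L j = primeOf q L j' ↔ ∀ x : L, ‖j x‖ ≤ 1 ↔ ‖j' x‖ ≤ 1 := by
  constructor
  · intro h x
    rw [← valuation_primeOf_le_one_iff, ← valuation_primeOf_le_one_iff, h]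
  · intro h
    apply HeightOneSpectrum.ext
    apply Ideal.ext
    intro x
    rw [mem_primeOf_iff, mem_primeOf_iff]
    by_cases hx : (x : L) = 0
    · simp [hx]
    · have hn : 0 < ‖j (x : L)‖ := norm_pos_iff.mpr ((map_ne_zero _).mpr hx)
      have hn' : 0 < ‖j' (x : L)‖ := norm_pos_iff.mpr ((map_ne_zero _).mpr hx)
      have h1 := h (x : L)⁻¹
      rw [map_inv₀, map_inv₀, norm_inv, norm_inv, inv_le_one₀ hn, inv_le_one₀ hn'] at h1
      rw [← not_le, ← not_le, h1]

/-- the norm of `j x` in terms of the adic valuation: if `π` is a uniformizer at `primeOf q L j`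
and `v(x) = exp (-n)` then `‖j x‖ = ‖j π‖ ^ n`. -/
theorem norm_eq_zpow_of_valuation_eq {π x : L} {n : ℤ}
    (hπ : (primeOf q L j).valuation L π = WithZero.exp (-1 : ℤ))
    (hx : (primeOf q L j).valuation L x = WithZero.exp (-n)) : ‖j x‖ = ‖j π‖ ^ n := by
  have hπ0 : π ≠ 0 := by
    intro h
    rw [h, map_zero] at hπ
    exact WithZero.exp_ne_zero hπ.symm
  have h1 : (primeOf q L j).valuation L (x / π ^ n) = 1 := by
    rw [map_div₀, map_zpow₀, hπ, hx, ← WithZero.exp_zsmul]
    have : (n • (-1 : ℤ)) = -n := by simp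
    rw [this, div_self WithZero.exp_ne_zero]
  have h2 := (valuation_primeOf_eq_one_iff j _).mp h1
  rw [map_div₀, map_zpow₀, norm_div, norm_zpow] at h2
  have h3 : ‖j π‖ ^ n ≠ 0 := zpow_ne_zero _ (norm_ne_zero_iff.mpr ((map_ne_zero _).mpr hπ0))
  exact (div_eq_one_iff_eq h3).mp h2

/-- if `q` is unramified at `primeOf q L j` then `‖j x‖ = q ^ (-n)` with `n = ord x`. -/
theorem norm_eq_zpow_of_unramified
    (hq : (primeOf q L j).valuation L (q : L) = WithZero.exp (-1 : ℤ)) {x : L} {n : ℤ}
    (hx : (primeOf q L j).valuation L x = WithZero.exp (-n)) : ‖j x‖ = ((q : ℝ)⁻¹) ^ n := by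
  rw [norm_eq_zpow_of_valuation_eq j hq hx, map_natCast, ProfinLoc80.norm_natCast_q]

end general

/-! ### the chosen embedding and its Galois twists -/

/-- the embedding `L → PadicAlgCl q` (no normality assumption); equal to `Idele73.Basic.iotaL`. -/
def emb : L →+* PadicAlgCl q := (padicEmbedding q).toRingHom.comp L.val.toRingHom

lemma emb_apply (x : L) : emb q L x = padicEmbedding q (x : Qbar) := rfl

lemma emb_injective : Function.Injective (emb q L) := (emb q L).injective

lemma emb_eq_iotaL [Normal ℚ L] : emb q L = iotaL q L := rfl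

/-- the prime `{x | ‖ι x‖ < 1}` of `𝓞 L`. -/
def basePrime : HeightOneSpectrum (𝓞 L) := primeOf q L (emb q L)

lemma mem_basePrime_iff (x : 𝓞 L) :
    x ∈ (basePrime q L).asIdeal ↔ ‖emb q L (x : L)‖ < 1 := Iff.rfl

lemma natCast_mem_basePrime : (q : 𝓞 L) ∈ (basePrime q L).asIdeal := natCast_mem_primeOf _

/-- `{x ∈ L | ‖ι x‖ ≤ 1}`, the valuation subring whose decomposition group is computed in
`ProfinLoc80.range_restrict`. -/
abbrev valSub : ValuationSubring L := (padicPlace q).comap (algebraMap L Qbar)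

lemma mem_valSub_iff (x : L) : x ∈ valSub q L ↔ ‖emb q L x‖ ≤ 1 := by
  rw [ValuationSubring.mem_comap, mem_padicPlace_iff, ← NNReal.coe_le_coe]
  rfl

lemma valSub_eq : valSub q L = valSubOf (emb q L) := by
  apply SetLike.ext
  intro x
  rw [mem_valSub_iff, mem_valSubOf_iff]

section finite

variable [FiniteDimensional ℚ L]

theorem valuationSubring_basePrime :
    ((basePrime q L).valuation L).valuationSubring = valSub q L := by
  rw [valSub_eq]
  exact valuationSubring_primeOf _

theorem valuation_basePrime_le_one_iff (x : L) :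
    (basePrime q L).valuation L x ≤ 1 ↔ ‖emb q L x‖ ≤ 1 := valuation_primeOf_le_one_iff _ x

theorem valuation_basePrime_lt_one_iff (x : L) :
    (basePrime q L).valuation L x < 1 ↔ ‖emb q L x‖ < 1 := valuation_primeOf_lt_one_iff _ x

theorem valuation_basePrime_eq_one_iff (x : L) :
    (basePrime q L).valuation L x = 1 ↔ ‖emb q L x‖ = 1 := valuation_primeOf_eq_one_iff _ x

end finite

/-! ### Galois twists: all primes above `q` -/

section galois

variable [FiniteDimensional ℚ L] [Normal ℚ L]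

/-- the embedding `x ↦ ι (g x)`. -/
def embAt (g : GalL L) : L →+* PadicAlgCl q := (emb q L).comp (g : L →+* L)

omit [FiniteDimensional ℚ L] [Normal ℚ L] in
lemma embAt_apply (g : GalL L) (x : L) : embAt q L g x = emb q L (g x) := rfl

omit [FiniteDimensional ℚ L] [Normal ℚ L] in
lemma embAt_apply' (g : GalL L) (x : L) : embAt q L g x = iotaL q L (g x) := rfl

omit [FiniteDimensional ℚ L] [Normal ℚ L] in
lemma embAt_one : embAt q L 1 = emb q L := rfl

/-- the prime `{x | ‖ι (g x)‖ < 1}` of `𝓞 L` (`g ∈ Gal(L/ℚ)`). -/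
def primeAt (g : GalL L) : HeightOneSpectrum (𝓞 L) := primeOf q L (embAt q L g)

omit [FiniteDimensional ℚ L] [Normal ℚ L] in
lemma mem_primeAt_iff (g : GalL L) (x : 𝓞 L) :
    x ∈ (primeAt q L g).asIdeal ↔ ‖emb q L (g (x : L))‖ < 1 := Iff.rfl

omit [FiniteDimensional ℚ L] [Normal ℚ L] in
lemma primeAt_one : primeAt q L 1 = basePrime q L := rfl

omit [FiniteDimensional ℚ L] [Normal ℚ L] in
lemma natCast_mem_primeAt (g : GalL L) : (q : 𝓞 L) ∈ (primeAt q L g).asIdeal :=
  natCast_mem_primeOf _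

omit [Normal ℚ L] in
theorem valuation_primeAt_le_one_iff (g : GalL L) (x : L) :
    (primeAt q L g).valuation L x ≤ 1 ↔ ‖emb q L (g x)‖ ≤ 1 :=
  valuation_primeOf_le_one_iff _ x

omit [Normal ℚ L] in
theorem valuation_primeAt_lt_one_iff (g : GalL L) (x : L) :
    (primeAt q L g).valuation L x < 1 ↔ ‖emb q L (g x)‖ < 1 :=
  valuation_primeOf_lt_one_iff _ x

omit [Normal ℚ L] in
theorem valuation_primeAt_eq_one_iff (g : GalL L) (x : L) :
    (primeAt q L g).valuation L x = 1 ↔ ‖emb q L (g x)‖ = 1 :=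
  valuation_primeOf_eq_one_iff _ x

/-- **transitivity**: every prime of `𝓞 L` above `q` is `primeAt q L g` for some `g`. -/
theorem exists_primeAt_eq (v : HeightOneSpectrum (𝓞 L)) (hv : (q : 𝓞 L) ∈ v.asIdeal) :
    ∃ g : GalL L, primeAt q L g = v := by
  have : IsGalois ℚ L := ⟨⟩
  let _ : MulSemiringAction (L ≃ₐ[ℚ] L) (𝓞 L) := IsIntegralClosure.MulSemiringAction ℤ ℚ L (𝓞 L)
  have := IsGaloisGroup.of_isFractionRing (L ≃ₐ[ℚ] L) ℤ (𝓞 L) ℚ L
  have hqp : Prime (q : ℤ) := Nat.prime_iff_prime_int.mp Fact.out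
  have h1 : (basePrime q L).asIdeal.LiesOver (Ideal.span {(q : ℤ)}) :=
    (Ideal.liesOver_span_iff (basePrime q L).isPrime.ne_top hqp).mpr (by
      simpa using natCast_mem_basePrime q L)
  have h2 : v.asIdeal.LiesOver (Ideal.span {(q : ℤ)}) :=
    (Ideal.liesOver_span_iff v.isPrime.ne_top hqp).mpr (by simpa using hv)
  obtain ⟨g, hg⟩ := Algebra.IsInvariant.exists_smul_of_under_eq ℤ (𝓞 L) (L ≃ₐ[ℚ] L)
    (basePrime q L).asIdeal v.asIdeal (h1.over.symm.trans h2.over)
  refine ⟨g⁻¹, ?_⟩
  apply HeightOneSpectrum.ext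
  rw [hg]
  apply Ideal.ext
  intro x
  rw [mem_primeAt_iff, Ideal.mem_pointwise_smul_iff_inv_smul_mem, mem_basePrime_iff]
  have : ((g⁻¹ • x : 𝓞 L) : L) = g⁻¹ (x : L) := algebraMap_galRestrict_apply ℤ g⁻¹ x
  rw [this]

omit [FiniteDimensional ℚ L] in
/-- the decomposition group of `L` at the chosen place above `q`: the image of the local Galois
group (helper80, `ProfinLoc80.range_restrict`). -/
theorem range_locHom : (locHom q L).range = (valSub q L).decompositionSubgroup ℚ :=
  ProfinLoc80.range_restrict q L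

omit [FiniteDimensional ℚ L] in
/-- elements of the decomposition group preserve `‖ι ·‖`. -/
theorem norm_emb_apply_of_mem_range {σ : GalL L} (hσ : σ ∈ (locHom q L).range) (x : L) :
    ‖emb q L (σ x)‖ = ‖emb q L x‖ := by
  rw [range_locHom] at hσ
  exact ProfinLoc80.norm_map_eq_of_mem_decompositionSubgroup q L σ hσ x

/-- `primeAt g = primeAt g'` iff `g' g⁻¹` lies in the decomposition group. -/
theorem primeAt_eq_primeAt_iff (g g' : GalL L) :
    primeAt q L g = primeAt q L g' ↔ g' * g⁻¹ ∈ (locHom q L).range := by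
  rw [primeAt, primeAt, primeOf_eq_iff]
  constructor
  · intro h
    rw [range_locHom, ValuationSubring.decompositionSubgroup, MulAction.mem_stabilizer_iff]
    apply SetLike.ext
    intro y
    rw [ValuationSubring.mem_pointwise_smul_iff_inv_smul_mem, mem_valSub_iff, mem_valSub_iff,
      AlgEquiv.smul_def]
    have h1 := h (g'⁻¹ y)
    rw [embAt_apply, embAt_apply] at h1
    have e1 : g' (g'⁻¹ y) = y := by
      rw [← AlgEquiv.mul_apply, mul_inv_cancel, AlgEquiv.one_apply]
    have e2 : (g' * g⁻¹)⁻¹ y = g (g'⁻¹ y) := by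
      rw [mul_inv_rev, inv_inv, AlgEquiv.mul_apply]
    rw [e1] at h1
    rw [e2]
    exact h1
  · intro h x
    rw [embAt_apply, embAt_apply]
    have e : g' x = (g' * g⁻¹) (g x) := by
      rw [AlgEquiv.mul_apply, ← AlgEquiv.mul_apply g⁻¹, inv_mul_cancel, AlgEquiv.one_apply]
    rw [e, norm_emb_apply_of_mem_range q L h]

/-- **S-unit dictionary**: `x` is a unit at every prime of `𝓞 L` above `q` iff all its conjugates
have norm one in `PadicAlgCl q`. -/
theorem forall_valuation_eq_one_iff (x : L) :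
    (∀ v : HeightOneSpectrum (𝓞 L), (q : 𝓞 L) ∈ v.asIdeal → v.valuation L x = 1) ↔
      ∀ g : GalL L, ‖emb q L (g x)‖ = 1 := by
  constructor
  · intro h g
    rw [← valuation_primeAt_eq_one_iff]
    exact h _ (natCast_mem_primeAt q L g)
  · intro h v hv
    obtain ⟨g, rfl⟩ := exists_primeAt_eq q L v hv
    rw [valuation_primeAt_eq_one_iff]
    exact h g

/-- integrality version: `x` is integral at every prime above `q` iff all conjugates have norm
`≤ 1`. -/
theorem forall_valuation_le_one_iff (x : L) :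
    (∀ v : HeightOneSpectrum (𝓞 L), (q : 𝓞 L) ∈ v.asIdeal → v.valuation L x ≤ 1) ↔
      ∀ g : GalL L, ‖emb q L (g x)‖ ≤ 1 := by
  constructor
  · intro h g
    rw [← valuation_primeAt_le_one_iff]
    exact h _ (natCast_mem_primeAt q L g)
  · intro h v hv
    obtain ⟨g, rfl⟩ := exists_primeAt_eq q L v hv
    rw [valuation_primeAt_le_one_iff]
    exact h g

end galois

/-! ### different rational primes give different primes -/

section distinct

variable [FiniteDimensional ℚ L]

omit [FiniteDimensional ℚ L] in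
/-- a prime ideal of `𝓞 L` contains at most one rational prime. -/
theorem eq_of_natCast_mem {q' : ℕ} [Fact q'.Prime] {P : Ideal (𝓞 L)} (hP : P ≠ ⊤)
    (h : (q : 𝓞 L) ∈ P) (h' : (q' : 𝓞 L) ∈ P) : q = q' := by
  by_contra hne
  have hcop : Nat.Coprime q q' := (Nat.coprime_primes Fact.out Fact.out).mpr hne
  have h1 : ((Nat.gcdA q q' * q + Nat.gcdB q q' * q' : ℤ) : 𝓞 L) ∈ P := by
    push_cast
    exact P.add_mem (P.mul_mem_left _ h) (P.mul_mem_left _ h')
  have h2 : (Nat.gcdA q q' * q + Nat.gcdB q q' * q' : ℤ) = 1 := by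
    have := Nat.gcd_eq_gcd_ab q q'
    rw [hcop.gcd_eq_one] at this
    push_cast at this
    linarith
  rw [h2, Int.cast_one] at h1
  exact hP ((Ideal.eq_top_iff_one P).mpr h1)

end distinct

end Fermat.Agent.S55.PlaceCount50
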