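/-
S55 / 47d-PLACE-COUNT (helper50): the global-local counts for a finite Galois level `L/ℚ` in
helper73's place-free model.

* `primesAbove q L` : the finite set of primes of `𝓞 L` above `q`;
* `cosetEquivPrimesAbove` : `Gal(L/ℚ) ⧸ D_q ≃ primesAbove q L`, `D_q = range (locHom q L)`;
* `card_primesAbove_mul` : `#primesAbove * #D_q = [L:ℚ]`;
* `finrank_localLevel` : `[ℚ_q(ι L) : ℚ_q] = #D_q`; hence `∑_{w | q} [L_w : ℚ_q] = [L:ℚ]`;
* `finrank_eq_two_mul_nrComplexPlaces` : `[L:ℚ] = 2 r₂` if `L` contains a primitive `p`-th root of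
  unity, `2 < p`;
* `count` : `∑_{q ∈ S} #primesAbove q * (2 + [q = p] [L_w:ℚ_p]) = 2 (#T + r₂)`, `T` the set of
  primes of `𝓞 L` above `S` (`p ∈ S`).
Complete proofs.
-/
import Mathlib
import Fermat.Agent.S55.PlaceCount50.Dict
import Fermat.Agent.S55.Idele73.Local

set_option autoImplicit false

open scoped NNReal Pointwise
open IsDedekindDomain NumberField

noncomputable section

namespace Fermat.Agent.S55.PlaceCount50

open Fermat.Agent.S55.Idele73.Basic Fermat.Agent.S55.Idele73.Local Fermat.Agent.S55.ProfinLoc80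

variable (q : ℕ) [Fact q.Prime] (L : IntermediateField ℚ Qbar) [FiniteDimensional ℚ L]
  [Normal ℚ L]

/-- the primes of `𝓞 L` above `q`. -/
def primesAbove : Finset (HeightOneSpectrum (𝓞 L)) := by
  classical exact Finset.univ.image (primeAt q L)

theorem mem_primesAbove_iff (v : HeightOneSpectrum (𝓞 L)) :
    v ∈ primesAbove q L ↔ (q : 𝓞 L) ∈ v.asIdeal := by
  classical
  rw [primesAbove, Finset.mem_image]
  constructor
  · rintro ⟨g, -, rfl⟩
    exact natCast_mem_primeAt q L g
  · intro hv
    obtain ⟨g, hg⟩ := exists_primeAt_eq q L v hv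
    exact ⟨g, Finset.mem_univ g, hg⟩

theorem primeAt_mem_primesAbove (g : GalL L) : primeAt q L g ∈ primesAbove q L :=
  (mem_primesAbove_iff q L _).mpr (natCast_mem_primeAt q L g)

/-- the map `g D_q ↦ primeAt g⁻¹` on left cosets of the decomposition group. -/
def cosetToPrime : GalL L ⧸ (locHom q L).range → HeightOneSpectrum (𝓞 L) :=
  Quotient.lift (s := QuotientGroup.leftRel (locHom q L).range) (fun g => primeAt q L g⁻¹)
    (fun a b hab => by
      have hab' : a⁻¹ * b ∈ (locHom q L).range := QuotientGroup.leftRel_apply.mp hab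
      rw [primeAt_eq_primeAt_iff, inv_inv]
      have := (locHom q L).range.inv_mem hab'
      rwa [mul_inv_rev, inv_inv] at this)

lemma cosetToPrime_mk (g : GalL L) :
    cosetToPrime q L (g : GalL L ⧸ (locHom q L).range) = primeAt q L g⁻¹ := rfl

lemma cosetToPrime_injective : Function.Injective (cosetToPrime q L) := by
  intro x y
  induction x using QuotientGroup.induction_on with
  | H a =>
    induction y using QuotientGroup.induction_on with
    | H b =>
      intro h
      rw [cosetToPrime_mk, cosetToPrime_mk, primeAt_eq_primeAt_iff, inv_inv] at h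
      rw [QuotientGroup.eq]
      have := (locHom q L).range.inv_mem h
      rwa [mul_inv_rev, inv_inv] at this

lemma cosetToPrime_mem (x : GalL L ⧸ (locHom q L).range) :
    cosetToPrime q L x ∈ primesAbove q L := by
  induction x using QuotientGroup.induction_on with
  | H a => exact primeAt_mem_primesAbove q L a⁻¹

/-- `Gal(L/ℚ) ⧸ D_q ≃ {primes of 𝓞 L above q}`. -/
def cosetEquivPrimesAbove :
    (GalL L ⧸ (locHom q L).range) ≃ {v : HeightOneSpectrum (𝓞 L) // v ∈ primesAbove q L} :=
  Equiv.ofBijective (fun x => ⟨cosetToPrime q L x, cosetToPrime_mem q L x⟩) (by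
    constructor
    · intro x y h
      exact cosetToPrime_injective q L (congrArg Subtype.val h)
    · rintro ⟨v, hv⟩
      obtain ⟨g, hg⟩ := exists_primeAt_eq q L v ((mem_primesAbove_iff q L v).mp hv)
      refine ⟨((g⁻¹ : GalL L) : GalL L ⧸ (locHom q L).range), ?_⟩
      apply Subtype.ext
      show cosetToPrime q L ((g⁻¹ : GalL L) : GalL L ⧸ (locHom q L).range) = v
      rw [cosetToPrime_mk, inv_inv, hg])

/-- the number of primes above `q` is the index of the decomposition group. -/
theorem card_primesAbove : (primesAbove q L).card = (locHom q L).range.index := by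
  rw [Subgroup.index, Nat.card_congr (cosetEquivPrimesAbove q L), Nat.card_eq_fintype_card,
    Fintype.card_coe]

/-- `#{primes above q} * #D_q = [L : ℚ]`. -/
theorem card_primesAbove_mul :
    (primesAbove q L).card * Nat.card (locHom q L).range = Module.finrank ℚ L := by
  have : IsGalois ℚ L := ⟨⟩
  rw [card_primesAbove, Subgroup.index_mul_card, IsGalois.card_aut_eq_finrank]

/-- `[ℚ_q(ι L) : ℚ_q] = #D_q`. -/
theorem finrank_localLevel :
    Module.finrank ℚ_[q] (localLevel q L) = Nat.card (locHom q L).range := by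
  have : IsGalois ℚ_[q] (Elev q L) := ⟨⟩
  have h1 : Nat.card (DE q L) = Module.finrank ℚ_[q] (Elev q L) :=
    IsGalois.card_aut_eq_finrank ℚ_[q] (Elev q L)
  have hr : (locHom q L).range = (jE q L).range := by
    rw [← jE_comp_resE, MonoidHom.range_comp,
      MonoidHom.range_eq_top.mpr (resE_surjective q L), ← MonoidHom.range_eq_map]
  rw [hr]
  change Module.finrank ℚ_[q] (Elev q L) = _
  rw [← h1]
  exact Nat.card_congr (MonoidHom.ofInjective (jE_injective q L)).toEquiv

/-- `∑_{w | q} [L_w : ℚ_q] = [L : ℚ]` (all local degrees above `q` are equal, `L/ℚ` Galois). -/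
theorem sum_localDegree :
    ∑ _v ∈ primesAbove q L, Module.finrank ℚ_[q] (localLevel q L) = Module.finrank ℚ L := by
  rw [Finset.sum_const, smul_eq_mul, finrank_localLevel, card_primesAbove_mul]

omit [Normal ℚ L] in
/-- a level containing a primitive `p`-th root of unity, `2 < p`, is totally complex. -/
theorem finrank_eq_two_mul_nrComplexPlaces {p : ℕ} (hp : 2 < p) {ζ : L}
    (hζ : IsPrimitiveRoot ζ p) :
    Module.finrank ℚ L = 2 * InfinitePlace.nrComplexPlaces L := by
  have h0 := InfinitePlace.IsPrimitiveRoot.nrRealPlaces_eq_zero_of_two_lt hp hζ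
  have h1 := InfinitePlace.card_add_two_mul_card_eq_rank L
  omega

/-! ### the count over a finite set `S` of rational primes -/

/-- `Fact` instance for the elements of `Nat.Primes` (any other instance is equal to this one by
proof irrelevance). -/
theorem factPrime (q : Nat.Primes) : Fact (q : ℕ).Prime := ⟨q.2⟩

attribute [local instance] factPrime

/-- the primes of `𝓞 L` above the rational primes in `S`. -/
def primesAboveSet (S : Finset Nat.Primes) : Finset (HeightOneSpectrum (𝓞 L)) := by
  classical exact S.biUnion (fun q => primesAbove (q : ℕ) L)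

theorem mem_primesAboveSet_iff (S : Finset Nat.Primes) (v : HeightOneSpectrum (𝓞 L)) :
    v ∈ primesAboveSet L S ↔ ∃ q ∈ S, (((q : ℕ) : ℕ) : 𝓞 L) ∈ v.asIdeal := by
  classical
  rw [primesAboveSet, Finset.mem_biUnion]
  constructor
  · rintro ⟨q, hq, hv⟩
    exact ⟨q, hq, (mem_primesAbove_iff (q : ℕ) L v).mp hv⟩
  · rintro ⟨q, hq, hv⟩
    exact ⟨q, hq, (mem_primesAbove_iff (q : ℕ) L v).mpr hv⟩

theorem card_primesAboveSet (S : Finset Nat.Primes) :
    (primesAboveSet L S).card = ∑ q ∈ S, (primesAbove (q : ℕ) L).card := by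
  classical
  rw [primesAboveSet, Finset.card_biUnion]
  intro q _ q' _ hne
  show Disjoint (primesAbove (q : ℕ) L) (primesAbove (q' : ℕ) L)
  rw [Finset.disjoint_left]
  intro v hv hv'
  rw [mem_primesAbove_iff] at hv hv'
  have := eq_of_natCast_mem (q : ℕ) L (q' := (q' : ℕ)) v.isPrime.ne_top hv hv'
  exact hne (Subtype.ext this)

/-- the local degree `[ℚ_q(ι L) : ℚ_q]`. -/
def locDeg : ℕ := Module.finrank ℚ_[q] (localLevel q L)

theorem locDeg_eq : locDeg q L = Nat.card (locHom q L).range := finrank_localLevel q L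

theorem card_primesAbove_mul_locDeg :
    (primesAbove q L).card * locDeg q L = Module.finrank ℚ L := by
  rw [locDeg_eq, card_primesAbove_mul]

/-- **the global-local count**: `∑_{q ∈ S} ∑_{w | q} (2 + [q = p] [L_w : ℚ_p]) = 2 (#T + r₂)` for a
Galois level `L ∋ ζ_p`, `p` odd, `p ∈ S`; `T` = primes of `𝓞 L` above `S`. The left side is
`∑_w dim_{𝔽_p} L_wˣ/p` by the local index formula, the right side is `2 dim_{𝔽_p} 𝓞_{L,T}ˣ/p`. -/
theorem count (S : Finset Nat.Primes) (p : Nat.Primes) (hpS : p ∈ S) (hp : 2 < (p : ℕ)) {ζ : L}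
    (hζ : IsPrimitiveRoot ζ (p : ℕ)) :
    ∑ q ∈ S, (primesAbove (q : ℕ) L).card * (2 + if q = p then locDeg (q : ℕ) L else 0) =
      2 * ((primesAboveSet L S).card + InfinitePlace.nrComplexPlaces L) := by
  classical
  have h1 : ∀ q ∈ S, (primesAbove (q : ℕ) L).card * (2 + if q = p then locDeg (q : ℕ) L else 0) =
      2 * (primesAbove (q : ℕ) L).card +
        (if q = p then (primesAbove (q : ℕ) L).card * locDeg (q : ℕ) L else 0) := by
    intro q _
    split_ifs <;> ring
  rw [Finset.sum_congr rfl h1, Finset.sum_add_distrib, ← Finset.mul_sum, ← card_primesAboveSet,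
    Finset.sum_ite_eq' S p, if_pos hpS, card_primesAbove_mul_locDeg,
    finrank_eq_two_mul_nrComplexPlaces L hp hζ]
  ring

/-- the same count indexed by the primes `v` of `𝓞 L` above `S`:
`∑_{v ∈ T} (2 + [v | p] [L_v : ℚ_p]) = 2 (#T + r₂)`. -/
theorem count' (S : Finset Nat.Primes) (p : Nat.Primes) (hpS : p ∈ S) (hp : 2 < (p : ℕ)) {ζ : L}
    (hζ : IsPrimitiveRoot ζ (p : ℕ)) [DecidablePred fun v : HeightOneSpectrum (𝓞 L) =>
      (((p : ℕ) : ℕ) : 𝓞 L) ∈ v.asIdeal] :
    ∑ v ∈ primesAboveSet L S,
        (2 + if (((p : ℕ) : ℕ) : 𝓞 L) ∈ v.asIdeal then locDeg (p : ℕ) L else 0) =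
      2 * ((primesAboveSet L S).card + InfinitePlace.nrComplexPlaces L) := by
  classical
  have hfilter : (primesAboveSet L S).filter
      (fun v => (((p : ℕ) : ℕ) : 𝓞 L) ∈ v.asIdeal) = primesAbove (p : ℕ) L := by
    ext v
    rw [Finset.mem_filter, mem_primesAbove_iff, mem_primesAboveSet_iff]
    exact ⟨fun h => h.2, fun h => ⟨⟨p, hpS, h⟩, h⟩⟩
  rw [Finset.sum_add_distrib, Finset.sum_const, smul_eq_mul, ← Finset.sum_filter, hfilter,
    Finset.sum_const, smul_eq_mul, card_primesAbove_mul_locDeg,
    finrank_eq_two_mul_nrComplexPlaces L hp hζ]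
  ring

end Fermat.Agent.S55.PlaceCount50
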