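/-
S55 / 47d-PLACE-COUNT (helper50): the double cosets `D_q \ G_ℚ / U` of the contract
(`Contract34.LocalDim`, count wire of `HilbertCount`) versus the primes of `𝓞 L` above `q`,
`L` the (finite normal) fixed field of the level `U = L.fixingSubgroup`.

* `dcEquivPrimesAbove` : `D_q \ G_ℚ / Gal(ℚ̄/L) ≃ {primes of 𝓞 L above q}`, `D_q g U ↦ primeAt q L (g|_L)`;
* `card_doubleCoset` : the number of double cosets is `#primesAbove q L`;
* `card_doubleCoset_primeLocal`, `card_doubleCoset_of_mem_globalLevels` : the same in the Prelude /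
  `Profin15.globalLevels` vocabulary.
Complete proofs.
-/
import Mathlib
import Fermat.Agent.S55.PlaceCount50.Count
import Fermat.Agent.S55.Profin15.Global

set_option autoImplicit false

open IsDedekindDomain NumberField

noncomputable section

namespace Fermat.Agent.S55.PlaceCount50

open Fermat.Agent.S55.Idele73.Basic Fermat.Agent.S55.Idele73.Local Fermat.Agent.S55.ProfinLoc80

variable (q : ℕ) [Fact q.Prime] (L : IntermediateField ℚ Qbar) [FiniteDimensional ℚ L]
  [Normal ℚ L]

omit [FiniteDimensional ℚ L] in
lemma resL_eq_one_iff {u : GQ} : resL L u = 1 ↔ u ∈ L.fixingSubgroup := by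
  rw [IntermediateField.mem_fixingSubgroup_iff]
  constructor
  · intro h x hx
    have := resL_apply L u ⟨x, hx⟩
    rw [h] at this
    exact this.symm
  · intro h
    ext x
    rw [resL_apply]
    exact h x x.2

omit [FiniteDimensional ℚ L] in
lemma resL_eq_one_of_mem_fixingSubgroup {u : GQ} (hu : u ∈ L.fixingSubgroup) : resL L u = 1 :=
  (resL_eq_one_iff L).mpr hu

omit [FiniteDimensional ℚ L] in
lemma mem_fixingSubgroup_of_resL_eq_one {u : GQ} (hu : resL L u = 1) : u ∈ L.fixingSubgroup :=
  (resL_eq_one_iff L).mp hu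

omit [FiniteDimensional ℚ L] in
lemma resL_localGaloisToGlobal (τ : Gq q) : resL L (localGaloisToGlobal q τ) = locHom q L τ := rfl

/-- `D_q g U ↦ primeAt q L (g|_L)`. -/
def dcToPrime :
    DoubleCoset.Quotient ((localGaloisToGlobal q).range : Set GQ) (L.fixingSubgroup : Set GQ) →
      HeightOneSpectrum (𝓞 L) :=
  Quotient.lift (fun g : GQ => primeAt q L (resL L g)) (by
    intro a b hab
    obtain ⟨d, hd, u, hu, rfl⟩ := DoubleCoset.rel_iff.mp hab
    obtain ⟨τ, rfl⟩ := hd
    show primeAt q L (resL L a) = primeAt q L (resL L (localGaloisToGlobal q τ * a * u))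
    rw [primeAt_eq_primeAt_iff, map_mul, map_mul, resL_eq_one_of_mem_fixingSubgroup L hu, mul_one,
      mul_inv_cancel_right, resL_localGaloisToGlobal]
    exact ⟨τ, rfl⟩)

lemma dcToPrime_mk (g : GQ) :
    dcToPrime q L (DoubleCoset.mk (localGaloisToGlobal q).range L.fixingSubgroup g) =
      primeAt q L (resL L g) := rfl

lemma dcToPrime_injective : Function.Injective (dcToPrime q L) := by
  intro x y
  induction x using Quotient.inductionOn with
  | h a =>
    induction y using Quotient.inductionOn with
    | h b =>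
      intro h
      change primeAt q L (resL L a) = primeAt q L (resL L b) at h
      rw [primeAt_eq_primeAt_iff] at h
      obtain ⟨τ, hτ⟩ := h
      apply Quotient.sound
      show DoubleCoset.setoid _ _ a b
      rw [DoubleCoset.rel_iff]
      refine ⟨localGaloisToGlobal q τ, ⟨τ, rfl⟩,
        (localGaloisToGlobal q τ * a)⁻¹ * b, ?_, by group⟩
      apply mem_fixingSubgroup_of_resL_eq_one
      rw [map_mul, map_inv, map_mul, resL_localGaloisToGlobal, hτ]
      group

lemma dcToPrime_mem (x) : dcToPrime q L x ∈ primesAbove q L := by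
  induction x using Quotient.inductionOn with
  | h a => exact primeAt_mem_primesAbove q L (resL L a)

/-- `D_q \ G_ℚ / Gal(ℚ̄/L) ≃ {primes of 𝓞 L above q}`. -/
def dcEquivPrimesAbove :
    DoubleCoset.Quotient ((localGaloisToGlobal q).range : Set GQ) (L.fixingSubgroup : Set GQ) ≃
      {v : HeightOneSpectrum (𝓞 L) // v ∈ primesAbove q L} :=
  Equiv.ofBijective (fun x => ⟨dcToPrime q L x, dcToPrime_mem q L x⟩) (by
    constructor
    · intro x y h
      exact dcToPrime_injective q L (congrArg Subtype.val h)
    · rintro ⟨v, hv⟩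
      obtain ⟨g, hg⟩ := exists_primeAt_eq q L v ((mem_primesAbove_iff q L v).mp hv)
      obtain ⟨g', rfl⟩ := resL_surjective L g
      exact ⟨DoubleCoset.mk _ _ g', Subtype.ext hg⟩)

/-- the number of double cosets `D_q \ G_ℚ / Gal(ℚ̄/L)` is the number of primes of `L` above `q`. -/
theorem card_doubleCoset :
    Nat.card (DoubleCoset.Quotient ((localGaloisToGlobal q).range : Set GQ)
      (L.fixingSubgroup : Set GQ)) = (primesAbove q L).card := by
  rw [Nat.card_congr (dcEquivPrimesAbove q L), Nat.card_eq_fintype_card, Fintype.card_coe]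

/-! ### Prelude / `Profin15.globalLevels` vocabulary -/

attribute [local instance] factPrime

/-- the same count for `ExtCitation.primeLocalToGlobal q`, `q : Nat.Primes`. -/
theorem card_doubleCoset_primeLocal (q : Nat.Primes) (F : IntermediateField ℚ Qbar)
    [FiniteDimensional ℚ F] [Normal ℚ F] :
    Nat.card (DoubleCoset.Quotient ((ExtCitation.primeLocalToGlobal q).range : Set GQ)
      (F.fixingSubgroup : Set GQ)) = (primesAbove (q : ℕ) F).card :=
  card_doubleCoset (q : ℕ) F

/-- a level of `Profin15.globalLevels S` is the fixing subgroup of a finite NORMAL field unramified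
outside `S`. -/
theorem exists_field_of_mem_globalLevels {S : Finset Nat.Primes} {U : Subgroup GQ}
    (hU : U ∈ (Profin15.globalLevels S).levels) :
    ∃ F : IntermediateField ℚ Qbar, FiniteDimensional ℚ F ∧ Normal ℚ F ∧
      F.IsUnramifiedOutside S ∧ U = F.fixingSubgroup := by
  obtain ⟨hn, F, hF, rfl⟩ := hU
  have : IsGalois ℚ Qbar := ⟨⟩
  have hgal : IsGalois ℚ F := (InfiniteGalois.normal_iff_isGalois F).mp hn
  exact ⟨F, hF.1, hgal.to_normal, hF, rfl⟩

/-- for a level `U` of `Profin15.globalLevels S`: the number of double cosets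
`range (primeLocalToGlobal q) \ G_ℚ / U` is the number of primes above `q` of the fixed field. -/
theorem card_doubleCoset_of_mem_globalLevels {S : Finset Nat.Primes} {U : Subgroup GQ}
    (hU : U ∈ (Profin15.globalLevels S).levels) (q : Nat.Primes) :
    ∃ (F : IntermediateField ℚ Qbar) (_ : FiniteDimensional ℚ F) (_ : Normal ℚ F),
      F.IsUnramifiedOutside S ∧ U = F.fixingSubgroup ∧
      Nat.card (DoubleCoset.Quotient ((ExtCitation.primeLocalToGlobal q).range : Set GQ)
        (U : Set GQ)) = (primesAbove (q : ℕ) F).card := by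
  obtain ⟨F, hfin, hnor, hF, rfl⟩ := exists_field_of_mem_globalLevels hU
  exact ⟨F, hfin, hnor, hF, rfl, card_doubleCoset_primeLocal q F⟩

end Fermat.Agent.S55.PlaceCount50
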