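/-
S55 / leaf 47h-LOC-H1-COUNT (helper50), file 1: the LOCAL `H¹` bound.

`K/ℚ_q` finite inside `PadicAlgCl q`, `μ_p ⊆ K`, `H = Gal(PadicAlgCl q / K)` with any level
structure `𝒱` whose levels contain fixing subgroups of finite extensions, `M` a one-dimensional
`𝔽_p`-module with trivial action.  Then the level cohomology `H¹(𝒱; M)` is finite and

  `dim H¹(𝒱; M) ≤ 2 + [p = q] · [K : ℚ_q]`.

Proof: a level cocycle is a level-constant homomorphism `c : H → 𝔽_p`; Hilbert 90 at level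
(`LocHilbert21.hilbert90_level`) gives `β` with `ζ^{c σ} = σβ/β`, and `c ↦ β^p ∈ Kˣ/Kˣᵖ` is
injective because `μ_p ⊆ K`; `#(Kˣ/Kˣᵖ) = p^(2 + [p=q][K:ℚ_q])` is `LocPowLF39`.
-/
import Fermat.Agent.S55.LocHilbert21.H90
import Fermat.Agent.S55.LocPowLF39
import Fermat.Agent.S55.Profin15.Cohomology
import Fermat.Agent.S55.Idele73.Local

set_option autoImplicit false
set_option linter.unusedSectionVars false
set_option linter.style.haveILetI false

noncomputable section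

namespace Fermat.Agent.S55.PlaceCount50

open Fermat.Agent.S55.Profin15 Fermat.Agent.S55.LocField17 Module groupCohomology

variable {p q : ℕ} [hp : Fact p.Prime] [hq : Fact q.Prime]

/-! ### generic: the card of `Kˣ/Kˣᵖ` -/

/-- `#(Kˣ/Kˣᵖ) = p ^ (2 + [p = q]·[K : ℚ_q])` when `μ_p ⊆ K`. -/
theorem card_units_quot_pow_eq (K : LF q) [FiniteDimensional ℚ_[q] K] {ζ : K}
    (hζ : IsPrimitiveRoot ζ p) :
    Nat.card (Kˣ ⧸ (powMonoidHom p : Kˣ →* Kˣ).range) =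
      p ^ (2 + if p = q then finrank ℚ_[q] K else 0) := by
  by_cases h : p = q
  · subst h
    rw [if_pos rfl, LocPowLF39.card_units_quot_pow_self_of_primitiveRoot K hζ, add_comm]
  · rw [if_neg h, LocPowLF39.card_units_quot_pow_of_ne_of_primitiveRoot K p h hζ]

/-! ### the Galois correspondence, elementwise -/

/-- an element of `PadicAlgCl q` fixed by `Gal(PadicAlgCl q / K)` lies in `K`. -/
theorem mem_of_forall_fixingSubgroup (K : LF q) {x : PadicAlgCl q}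
    (hx : ∀ σ ∈ K.fixingSubgroup, σ x = x) : x ∈ K := by
  rw [← InfiniteGalois.fixedField_fixingSubgroup K, IntermediateField.mem_fixedField_iff]
  exact hx

/-! ### the Kummer injection -/

section Kummer

variable (K : LF q) {ζ : PadicAlgCl q} (hζ : IsPrimitiveRoot ζ p)

/-- `ζ` as a unit. -/
def zetaUnit : (PadicAlgCl q)ˣ := Units.mk0 ζ (hζ.ne_zero hp.out.ne_zero)

theorem zetaUnit_pow : zetaUnit hζ ^ p = 1 := by
  apply Units.ext
  rw [Units.val_pow_eq_pow_val, zetaUnit, Units.val_mk0, hζ.pow_eq_one, Units.val_one]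

theorem zetaUnit_pow_val_add (a b : ZMod p) :
    zetaUnit hζ ^ (a + b).val = zetaUnit hζ ^ a.val * zetaUnit hζ ^ b.val := by
  haveI : NeZero p := ⟨hp.out.ne_zero⟩
  rw [ZMod.val_add, ← pow_add]
  exact (pow_eq_pow_mod _ (zetaUnit_pow hζ)).symm

theorem zetaUnit_pow_val_injective {a b : ZMod p}
    (h : zetaUnit hζ ^ a.val = zetaUnit hζ ^ b.val) : a = b := by
  haveI : NeZero p := ⟨hp.out.ne_zero⟩
  have h' : ζ ^ a.val = ζ ^ b.val := by
    have := congrArg (fun u : (PadicAlgCl q)ˣ => (u : PadicAlgCl q)) h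
    simpa [zetaUnit] using this
  exact ZMod.val_injective p (hζ.pow_inj (ZMod.val_lt a) (ZMod.val_lt b) h')

theorem smul_zetaUnit (hζK : ζ ∈ K) (σ : Gq q) (hσ : σ ∈ K.fixingSubgroup) :
    σ • zetaUnit hζ = zetaUnit hζ := by
  apply Units.ext
  rw [AlgEquiv.smul_units_def, Units.coe_map]
  exact (IntermediateField.mem_fixingSubgroup_iff _ _).1 hσ ζ hζK

end Kummer

/-! ### level characters -/

section Main

variable (K : LF q) {ζ : PadicAlgCl q} (H : Subgroup (Gq q)) (𝒱 : LevelStr ↥H)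

/-- additive characters `H → 𝔽_p` which are constant modulo a level of `𝒱`. -/
def LevelChar : Type :=
  {a : ↥H → ZMod p // (∀ σ τ, a (σ * τ) = a σ + a τ) ∧ 𝒱.IsConst₁ a}

variable {K H 𝒱}

/-- **Hilbert 90 for a level character**: `ζ ^ a(σ) = σ b / b`. -/
theorem exists_kummer_gen (hζ : IsPrimitiveRoot ζ p) (hζK : ζ ∈ K) (hH : H = K.fixingSubgroup)
    (h𝒱 : ∀ V ∈ 𝒱.levels, ∃ E : LF q, FiniteDimensional ℚ_[q] E ∧
      E.fixingSubgroup.subgroupOf H ≤ V) (a : LevelChar (p := p) H 𝒱) :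
    ∃ b : (PadicAlgCl q)ˣ, ∀ σ : ↥H,
      (σ : Gq q) (b : PadicAlgCl q) = ζ ^ (a.1 σ).val * (b : PadicAlgCl q) := by
  obtain ⟨V, hV, hc⟩ := a.2.2
  obtain ⟨E, hE, hEV⟩ := h𝒱 V hV
  haveI := hE
  obtain ⟨b, hb⟩ := LocHilbert21.hilbert90_level (K := ℚ_[q]) (Ω := PadicAlgCl q) H.subtype
    (fun σ => zetaUnit hζ ^ (a.1 σ).val)
    (fun σ τ => by
      show zetaUnit hζ ^ (a.1 (σ * τ)).val =
        zetaUnit hζ ^ (a.1 σ).val * ((σ : Gq q) • zetaUnit hζ ^ (a.1 τ).val)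
      rw [a.2.1, zetaUnit_pow_val_add, smul_pow', smul_zetaUnit K hζ hζK _ (hH ▸ σ.2)])
    E
    (fun σ s hs => by
      show zetaUnit hζ ^ (a.1 (σ * s)).val = zetaUnit hζ ^ (a.1 σ).val
      rw [hc σ s (hEV (Subgroup.mem_subgroupOf.2 hs))])
  refine ⟨b, fun σ => ?_⟩
  have h1 := congrArg (fun u : (PadicAlgCl q)ˣ => (u : PadicAlgCl q)) (hb σ)
  simp only [Units.val_div_eq_div_val, Units.val_pow_eq_pow_val, zetaUnit, Units.val_mk0,
    AlgEquiv.smul_units_def, Units.coe_map, MonoidHom.coe_coe, Subgroup.coe_subtype] at h1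
  rw [h1, div_mul_cancel₀ _ b.ne_zero]

/-- the `p`-th power of a Kummer generator lies in `K`. -/
theorem pow_mem_of_kummer_gen (hζ : IsPrimitiveRoot ζ p) (hH : H = K.fixingSubgroup) {a : ↥H → ZMod p}
    {b : PadicAlgCl q}
    (hb : ∀ σ : ↥H, (σ : Gq q) b = ζ ^ (a σ).val * b) : b ^ p ∈ K := by
  apply mem_of_forall_fixingSubgroup
  intro σ hσ
  have h1 := hb ⟨σ, hH ▸ hσ⟩
  simp only at h1
  rw [map_pow, h1, mul_pow, ← pow_mul, mul_comm _ p, pow_mul, hζ.pow_eq_one, one_pow, one_mul]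

/-- the Kummer generator determines the character, up to `Kˣ`. -/
theorem eq_of_kummer_gen (hζ : IsPrimitiveRoot ζ p) (hζK : ζ ∈ K) (hH : H = K.fixingSubgroup) {a a' : ↥H → ZMod p}
    {b b' : PadicAlgCl q} (hb0 : b ≠ 0) (hb0' : b' ≠ 0)
    (hb : ∀ σ : ↥H, (σ : Gq q) b = ζ ^ (a σ).val * b)
    (hb' : ∀ σ : ↥H, (σ : Gq q) b' = ζ ^ (a' σ).val * b')
    {u : PadicAlgCl q} (huK : u ∈ K) (hu0 : u ≠ 0) (hu : b ^ p = b' ^ p * u ^ p) : a = a' := by
  haveI : NeZero p := ⟨hp.out.ne_zero⟩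
  set t : PadicAlgCl q := b / (b' * u) with ht
  have htp : t ^ p = 1 := by
    rw [ht, div_pow, mul_pow, hu, div_self]
    exact mul_ne_zero (pow_ne_zero _ hb0') (pow_ne_zero _ hu0)
  obtain ⟨i, -, hi⟩ := hζ.eq_pow_of_pow_eq_one htp
  have htK : t ∈ K := by rw [← hi]; exact pow_mem hζK i
  have hbt : b = t * (b' * u) := by
    rw [ht, div_mul_cancel₀]
    exact mul_ne_zero hb0' hu0
  funext σ
  have hσ : (σ : Gq q) ∈ K.fixingSubgroup := hH ▸ σ.2
  have hfix : ∀ x ∈ K, (σ : Gq q) x = x := fun x hx =>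
    (IntermediateField.mem_fixingSubgroup_iff _ _).1 hσ x hx
  have h1 : ζ ^ (a σ).val * b = ζ ^ (a' σ).val * b := by
    rw [← hb σ]
    conv_lhs => rw [hbt]
    rw [map_mul, map_mul, hfix t htK, hfix u huK, hb' σ, hbt]
    ring
  have h2 : ζ ^ (a σ).val = ζ ^ (a' σ).val := mul_right_cancel₀ hb0 h1
  exact ZMod.val_injective p (hζ.pow_inj (ZMod.val_lt _) (ZMod.val_lt _) h2)

/-- the Kummer class (by choice) of a level character. -/
def kummerClass (hζ : IsPrimitiveRoot ζ p) (hζK : ζ ∈ K) (hH : H = K.fixingSubgroup)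
    (h𝒱 : ∀ V ∈ 𝒱.levels, ∃ E : LF q, FiniteDimensional ℚ_[q] E ∧
      E.fixingSubgroup.subgroupOf H ≤ V) (a : LevelChar (p := p) H 𝒱) :
    Kˣ ⧸ (powMonoidHom p : Kˣ →* Kˣ).range :=
  QuotientGroup.mk (Units.mk0
    (⟨((Classical.choose (exists_kummer_gen hζ hζK hH h𝒱 a) : (PadicAlgCl q)ˣ) :
        PadicAlgCl q) ^ p,
      pow_mem_of_kummer_gen hζ hH (Classical.choose_spec (exists_kummer_gen hζ hζK hH h𝒱 a))⟩ : K)
    (by
      intro h
      have h' := congrArg (fun x : K => (x : PadicAlgCl q)) h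
      exact pow_ne_zero p (Classical.choose (exists_kummer_gen hζ hζK hH h𝒱 a)).ne_zero h'))

theorem kummerClass_spec (hζ : IsPrimitiveRoot ζ p) (hζK : ζ ∈ K) (hH : H = K.fixingSubgroup)
    (h𝒱 : ∀ V ∈ 𝒱.levels, ∃ E : LF q, FiniteDimensional ℚ_[q] E ∧
      E.fixingSubgroup.subgroupOf H ≤ V) (a : LevelChar (p := p) H 𝒱) :
    ∃ (b : PadicAlgCl q) (hbK : b ^ p ∈ K) (h0 : (⟨b ^ p, hbK⟩ : K) ≠ 0),
      (∀ σ : ↥H, (σ : Gq q) b = ζ ^ (a.1 σ).val * b) ∧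
      kummerClass (K := K) hζ hζK hH h𝒱 a = QuotientGroup.mk (Units.mk0 ⟨b ^ p, hbK⟩ h0) :=
  ⟨_, _, _, Classical.choose_spec (exists_kummer_gen hζ hζK hH h𝒱 a), rfl⟩

theorem kummerClass_injective (hζ : IsPrimitiveRoot ζ p) (hζK : ζ ∈ K)
    (hH : H = K.fixingSubgroup)
    (h𝒱 : ∀ V ∈ 𝒱.levels, ∃ E : LF q, FiniteDimensional ℚ_[q] E ∧
      E.fixingSubgroup.subgroupOf H ≤ V) :
    Function.Injective (kummerClass (K := K) (𝒱 := 𝒱) hζ hζK hH h𝒱) := by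
  intro a a' h
  obtain ⟨b, hbK, h0, hb, hab⟩ := kummerClass_spec hζ hζK hH h𝒱 a
  obtain ⟨b', hbK', h0', hb', hab'⟩ := kummerClass_spec hζ hζK hH h𝒱 a'
  rw [hab, hab', QuotientGroup.eq] at h
  obtain ⟨u, hu⟩ := h
  have hb0 : b ≠ 0 := by
    rintro rfl
    apply h0
    apply Subtype.ext
    simp [hp.out.ne_zero]
  have hb0' : b' ≠ 0 := by
    rintro rfl
    apply h0'
    apply Subtype.ext
    simp [hp.out.ne_zero]
  -- `b' ^ p = b ^ p * u ^ p`
  have hu' : Units.mk0 (⟨b' ^ p, hbK'⟩ : K) h0' = Units.mk0 (⟨b ^ p, hbK⟩ : K) h0 * u ^ p := by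
    have hu2 : u ^ p = (Units.mk0 (⟨b ^ p, hbK⟩ : K) h0)⁻¹ * Units.mk0 (⟨b' ^ p, hbK'⟩ : K) h0' := hu
    rw [hu2, mul_inv_cancel_left]
  have h1 : b' ^ p = b ^ p * ((u : K) : PadicAlgCl q) ^ p := by
    have h2 := congrArg (fun x : Kˣ => (((x : K)) : PadicAlgCl q)) hu'
    simpa using h2
  apply Subtype.ext
  exact (eq_of_kummer_gen hζ hζK hH hb0' hb0 hb' hb (u : K).2
    (fun h0 => u.ne_zero (Subtype.ext h0)) h1).symm

variable (K H 𝒱) in
/-- **the count of level characters**: `#Hom_level(H, 𝔽_p) ≤ p ^ (2 + [p = q]·[K : ℚ_q])`. -/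
theorem card_levelChar_le [FiniteDimensional ℚ_[q] K] (hζ : IsPrimitiveRoot ζ p) (hζK : ζ ∈ K)
    (hH : H = K.fixingSubgroup)
    (h𝒱 : ∀ V ∈ 𝒱.levels, ∃ E : LF q, FiniteDimensional ℚ_[q] E ∧
      E.fixingSubgroup.subgroupOf H ≤ V) :
    Finite (LevelChar (p := p) H 𝒱) ∧
      Nat.card (LevelChar (p := p) H 𝒱) ≤ p ^ (2 + if p = q then finrank ℚ_[q] K else 0) := by
  haveI : Finite (Kˣ ⧸ (powMonoidHom p : Kˣ →* Kˣ).range) := LocPowLF39.finite_units_quot_pow K p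
  have hζ' : IsPrimitiveRoot (⟨ζ, hζK⟩ : K) p :=
    IsPrimitiveRoot.of_map_of_injective (f := K.val) (by simpa using hζ) K.val.injective
  refine ⟨Finite.of_injective _ (kummerClass_injective (K := K) (𝒱 := 𝒱) hζ hζK hH h𝒱), ?_⟩
  rw [← card_units_quot_pow_eq K hζ']
  exact Nat.card_le_card_of_injective _ (kummerClass_injective (K := K) (𝒱 := 𝒱) hζ hζK hH h𝒱)

/-! ### the bound for `H¹` -/

/-- a level `1`-cocycle with values in a trivial one-dimensional module is a level character. -/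
def cocycleToChar (M : Rep.{0} (ZMod p) ↥H) (hρ : ∀ (h : ↥H) (m : M), M.ρ h m = m)
    (e : M ≃ₗ[ZMod p] ZMod p) (f : ↥(𝒱.Z₁ M)) : LevelChar (p := p) H 𝒱 :=
  ⟨fun σ => e ((f : ↥H → M) σ), fun σ τ => by
      have h1 := (mem_cocycles₁_iff (f : ↥H → M)).1 f.2.1 σ τ
      show e ((f : ↥H → M) (σ * τ)) = e ((f : ↥H → M) σ) + e ((f : ↥H → M) τ)
      rw [h1, hρ, map_add, add_comm], f.2.2.comp e⟩

theorem cocycleToChar_injective (M : Rep.{0} (ZMod p) ↥H) (hρ : ∀ (h : ↥H) (m : M), M.ρ h m = m)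
    (e : M ≃ₗ[ZMod p] ZMod p) : Function.Injective (cocycleToChar (𝒱 := 𝒱) M hρ e) := by
  intro f f' h
  apply Subtype.ext
  funext σ
  have h1 := congrFun (congrArg Subtype.val h) σ
  exact e.injective h1

variable (K H 𝒱) in
/-- **the local `H¹` bound**: for `K/ℚ_q` finite with `μ_p ⊆ K`, `H = Gal(PadicAlgCl q/K)` and a
one-dimensional trivial module `M`: `dim H¹(𝒱; M) ≤ 2 + [p = q]·[K : ℚ_q]`. -/
theorem finrank_H1_le_of_trivial [FiniteDimensional ℚ_[q] K] (hζ : IsPrimitiveRoot ζ p)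
    (hζK : ζ ∈ K) (hH : H = K.fixingSubgroup)
    (h𝒱 : ∀ V ∈ 𝒱.levels, ∃ E : LF q, FiniteDimensional ℚ_[q] E ∧
      E.fixingSubgroup.subgroupOf H ≤ V)
    (M : Rep.{0} (ZMod p) ↥H) (hρ : ∀ (h : ↥H) (m : M), M.ρ h m = m)
    (hM : finrank (ZMod p) M = 1) :
    Module.Finite (ZMod p) (𝒱.H1 M) ∧
      finrank (ZMod p) (𝒱.H1 M) ≤ 2 + if p = q then finrank ℚ_[q] K else 0 := by
  haveI : Module.Finite (ZMod p) M := Module.finite_of_finrank_pos (by rw [hM]; exact one_pos)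
  let e : M ≃ₗ[ZMod p] ZMod p :=
    LinearEquiv.ofFinrankEq M (ZMod p) (by rw [hM, Module.finrank_self])
  obtain ⟨hfin, hcard⟩ := card_levelChar_le (p := p) K H 𝒱 hζ hζK hH h𝒱
  haveI := hfin
  haveI : Finite ↥(𝒱.Z₁ M) := Finite.of_injective _ (cocycleToChar_injective (𝒱 := 𝒱) M hρ e)
  have h1 : Nat.card ↥(𝒱.Z₁ M) ≤ Nat.card (LevelChar (p := p) H 𝒱) :=
    Nat.card_le_card_of_injective _ (cocycleToChar_injective (𝒱 := 𝒱) M hρ e)
  haveI : Finite (𝒱.H1 M) := Finite.of_surjective _ (Submodule.mkQ_surjective _)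
  have h2 : Nat.card (𝒱.H1 M) ≤ Nat.card ↥(𝒱.Z₁ M) :=
    Nat.card_le_card_of_surjective _ (Submodule.mkQ_surjective _)
  haveI : Module.Finite (ZMod p) (𝒱.H1 M) := Module.Finite.of_finite
  refine ⟨inferInstance, ?_⟩
  have h3 : Nat.card (𝒱.H1 M) = p ^ finrank (ZMod p) (𝒱.H1 M) := by
    rw [Module.natCard_eq_pow_finrank (K := ZMod p), Nat.card_zmod]
  have h4 : p ^ finrank (ZMod p) (𝒱.H1 M) ≤ p ^ (2 + if p = q then finrank ℚ_[q] K else 0) := by
    rw [← h3]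
    exact (h2.trans h1).trans hcard
  exact (Nat.pow_le_pow_iff_right hp.out.one_lt).1 h4

end Main

end Fermat.Agent.S55.PlaceCount50
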