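/-
S55 / leaf 47h-LOC-H1-COUNT (helper50), file 2: the local `H¹` bound on the LITERAL carrier of
the count wire (`ShapiroLevel32.kerLevels (Profin15.pullLevels r_q)` on `ker (π ∘ r_q)`), and the
sum over the places above `S` (= input (L)-`hW` of `CountWire96.finrank_sha2_le_finrank_sha1`).
-/
import Fermat.Agent.S55.PlaceCount50.LocH1
import Fermat.Agent.S55.PlaceCount50.DoubleCoset
import Fermat.Agent.S55.PlaceCount88
import Fermat.Agent.S55.ShapiroLevel32.Level
import Fermat.Agent.S55.ShapiroLevel32.Orbit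
import Fermat.Agent.S55.Profin15.Local
import Fermat.Agent.S55.Contract34

set_option autoImplicit false
set_option linter.unusedSectionVars false
set_option linter.style.haveILetI false

open IsDedekindDomain NumberField

noncomputable section

namespace Fermat.Agent.S55.PlaceCount50

open Fermat.Agent.S55.Idele73.Basic Fermat.Agent.S55.Idele73.Local Fermat.Agent.S55.ProfinLoc80
open Fermat.Agent.S55.Profin15 Fermat.Agent.S55.ShapiroLevel32 Module

section Nat

variable (p q : ℕ) [hp : Fact p.Prime] [Fact q.Prime] (L : IntermediateField ℚ Qbar)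
  [FiniteDimensional ℚ L]

/-- `ker (π ∘ r_q) = Gal(PadicAlgCl q / ℚ_q(ι L))` when `ker π = Gal(ℚ̄/L)`. -/
theorem ker_comp_localGaloisToGlobal {Γ : Type} [Group Γ] (π : GQ →* Γ)
    (hπ : π.ker = L.fixingSubgroup) :
    (π.comp (localGaloisToGlobal q)).ker = (localLevel q L).fixingSubgroup := by
  ext τ
  rw [mem_fixingSubgroup_localLevel_iff, ← hπ, MonoidHom.mem_ker, MonoidHom.mem_ker,
    MonoidHom.comp_apply]

/-- **the local `H¹` bound on the carrier of the count wire** (`q : ℕ` form). -/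
theorem finrank_localH1_le_nat {ζ : Qbar} (hζ : IsPrimitiveRoot ζ p) (hζL : ζ ∈ L)
    {Γ : Type} [Group Γ] (π : GQ →* Γ) (hπ : π.ker = L.fixingSubgroup)
    (hker' : ∃ V ∈ (pullLevels (localGaloisToGlobal q)).levels,
      V ≤ (π.comp (localGaloisToGlobal q)).ker)
    (M : Rep.{0} (ZMod p) ↥(π.comp (localGaloisToGlobal q)).ker)
    (hρ : ∀ (h : ↥(π.comp (localGaloisToGlobal q)).ker) (m : M), M.ρ h m = m)
    (hM : finrank (ZMod p) M = 1) :
    Module.Finite (ZMod p) ((kerLevels (pullLevels (localGaloisToGlobal q)) hker').H1 M) ∧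
      finrank (ZMod p) ((kerLevels (pullLevels (localGaloisToGlobal q)) hker').H1 M) ≤
        2 + if p = q then locDeg q L else 0 := by
  haveI : FiniteDimensional ℚ_[q] (localLevel q L) := finiteDimensional_Elev q L
  refine finrank_H1_le_of_trivial (p := p) (q := q) (localLevel q L)
    (ζ := padicEmbedding q ζ) _ _ (hζ.map_of_injective (padicEmbedding q).toRingHom.injective)
    (padicEmbedding_mem_localLevel q L ⟨ζ, hζL⟩) (ker_comp_localGaloisToGlobal q L π hπ) ?_ M hρ hM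
  rintro W ⟨V, hV, hle, rfl⟩
  obtain ⟨U, ⟨hUn, F, hF, rfl⟩, rfl⟩ := hV
  haveI := hF
  refine ⟨localLevel q F, finiteDimensional_Elev q F, ?_⟩
  intro x hx
  rw [Subgroup.mem_subgroupOf] at hx ⊢
  exact (mem_fixingSubgroup_localLevel_iff q F _).1 hx

end Nat

/-! ### `Nat.Primes` / Prelude vocabulary -/

attribute [local instance] factPrime

section Primes

variable (p : ℕ) [hp : Fact p.Prime] (q : Nat.Primes) (L : IntermediateField ℚ Qbar)
  [FiniteDimensional ℚ L]

/-- **the local `H¹` bound on the carrier of the count wire** (Prelude vocabulary):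
`dim H¹(G_{L_w}, 𝔽_p) ≤ 2 + [p = q]·[L_w : ℚ_q]` for `G_{L_w} = ker (π ∘ primeLocalToGlobal q)`,
`ker π = Gal(ℚ̄/L)`, `ζ_p ∈ L`. -/
theorem finrank_localH1_le {ζ : Qbar} (hζ : IsPrimitiveRoot ζ p) (hζL : ζ ∈ L)
    {Γ : Type} [Group Γ] (π : GQ →* Γ) (hπ : π.ker = L.fixingSubgroup)
    (hker' : ∃ V ∈ (pullLevels (ExtCitation.primeLocalToGlobal q)).levels,
      V ≤ (π.comp (ExtCitation.primeLocalToGlobal q)).ker)
    (M : Rep.{0} (ZMod p) ↥(π.comp (ExtCitation.primeLocalToGlobal q)).ker)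
    (hρ : ∀ (h : ↥(π.comp (ExtCitation.primeLocalToGlobal q)).ker) (m : M), M.ρ h m = m)
    (hM : finrank (ZMod p) M = 1) :
    Module.Finite (ZMod p)
        ((kerLevels (pullLevels (ExtCitation.primeLocalToGlobal q)) hker').H1 M) ∧
      finrank (ZMod p) ((kerLevels (pullLevels (ExtCitation.primeLocalToGlobal q)) hker').H1 M) ≤
        2 + if p = (q : ℕ) then locDeg (q : ℕ) L else 0 :=
  finrank_localH1_le_nat p (q : ℕ) L hζ hζL π hπ hker' M hρ hM

end Primes

/-! ### orbit representatives `↔` primes above `q` -/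

section OrbReps

universe u

/-- the representatives of an orbit section are in bijection with `Γ ⧸ π(G)`. -/
def orbRepsEquivQuot {G Γ : Type u} [Group G] [Group Γ] {π : G →* Γ} (τ : OrbSect π) :
    τ.R ≃ Γ ⧸ π.range :=
  Equiv.ofBijective (fun ρ => QuotientGroup.mk (ρ : Γ)) (by
    constructor
    · intro ρ ρ' h
      have h1 : (ρ : Γ)⁻¹ * (ρ' : Γ) ∈ π.range := QuotientGroup.eq.1 h
      obtain ⟨g, hg⟩ := h1
      apply Subtype.ext
      have h2 : (ρ' : Γ) = (ρ : Γ) * π g := by rw [hg, mul_inv_cancel_left]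
      rw [← ρ'.2, h2, τ.rep_mul, ρ.2]
    · intro x
      induction x using QuotientGroup.induction_on with
      | H δ =>
        refine ⟨τ.repR δ, ?_⟩
        show (QuotientGroup.mk (τ.rep δ) : Γ ⧸ π.range) = QuotientGroup.mk δ
        rw [QuotientGroup.eq]
        exact ⟨τ.s δ, τ.π_s δ⟩)

variable (q : Nat.Primes) (L : IntermediateField ℚ Qbar) [FiniteDimensional ℚ L] [Normal ℚ L]

/-- for the level `U = Gal(ℚ̄/L)`: the orbit representatives of `D_q` on `G_ℚ/U` (index set of the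
orbit Shapiro isomorphism at `q`) are as many as the primes of `𝓞 L` above `q`. -/
theorem card_orbReps (U : Subgroup GQ) [U.Normal] (hU : U = L.fixingSubgroup)
    (τ : OrbSect ((QuotientGroup.mk' U).comp (ExtCitation.primeLocalToGlobal q))) :
    Nat.card τ.R = (primesAbove (q : ℕ) L).card := by
  subst hU
  rw [Nat.card_congr (orbRepsEquivQuot τ), ← PlaceCount88.card_doubleCoset_range_eq,
    card_doubleCoset_primeLocal]

end OrbReps

/-! ### `μ_p` trivial on `Gal(ℚ̄/L)` means `ζ_p ∈ L` -/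

section Mu

open ExtCitation

/-- if `μ_p` (the contract's `mu p`) is trivial on `Gal(ℚ̄/L)` then `L` contains the `p`-th roots
of unity. -/
theorem zeta_mem_of_mu_trivial (p : ℕ) [hp : Fact p.Prime] (L : IntermediateField ℚ Qbar)
    {ζ : Qbar} (hζ : ζ ^ p = 1)
    (hmu : ∀ s ∈ L.fixingSubgroup, (Contract34.mu p).ρ s = 1) : ζ ∈ L := by
  have : IsGalois ℚ Qbar := ⟨⟩
  haveI : NeZero p := ⟨hp.out.ne_zero⟩
  rw [← InfiniteGalois.fixedField_fixingSubgroup L, IntermediateField.mem_fixedField_iff]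
  intro s hs
  have h1 : ((cycloChar p s : (ZMod p)ˣ) : ZMod p) = 1 := by
    have h2 := LinearMap.congr_fun (hmu s hs) (1 : ZMod p)
    have h3 : (Contract34.mu p).ρ s (1 : ZMod p) =
        ((cycloChar p s : (ZMod p)ˣ) : ZMod p) • (1 : ZMod p) := rfl
    rw [h3, smul_eq_mul, mul_one] at h2
    exact h2
  have hζ0 : ζ ≠ 0 := by
    rintro rfl
    rw [zero_pow hp.out.ne_zero] at hζ
    exact zero_ne_one hζ
  have hζu : (Units.mk0 ζ hζ0) ^ p = 1 := by
    apply Units.ext
    rw [Units.val_pow_eq_pow_val, Units.val_mk0, hζ, Units.val_one]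
  have hspec : (s : Qbar ≃+* Qbar) ((Units.mk0 ζ hζ0 : Qbarˣ) : Qbar) =
      ((Units.mk0 ζ hζ0 : Qbarˣ) : Qbar) ^ ((cycloChar p s : (ZMod p)ˣ) : ZMod p).val :=
    modularCyclotomicCharacter.spec (L := Qbar) (card_rootsOfUnity_eq_self p) (s : Qbar ≃+* Qbar)
      ((mem_rootsOfUnity _ _).2 hζu)
  rw [h1, ZMod.val_one'' (by
    intro h
    exact hp.out.ne_one h), pow_one, Units.val_mk0] at hspec
  exact hspec

end Mu

/-! ### the sum over the places above `S` -/

section Sum

variable (S : Finset Nat.Primes) (p : Nat.Primes) (L : IntermediateField ℚ Qbar)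
  [FiniteDimensional ℚ L] [Normal ℚ L]

/-- **input (L)-`hW` of the count wire**: the local `H¹`'s at the places above `S` (indexed by
ANY family `R q` with `#R q = #{primes of 𝓞 L above q}`, e.g. orbit representatives of
`D_q \ G_ℚ / U`) have total dimension `≤ 2 (#T + r₂)`, `T` = primes of `𝓞 L` above `S`. -/
theorem sum_finrank_localH1_le (hpS : p ∈ S) (hp2 : 2 < (p : ℕ)) {ζ : Qbar}
    (hζ : IsPrimitiveRoot ζ (p : ℕ)) (hζL : ζ ∈ L)
    {Γ : Type} [Group Γ] (π : GQ →* Γ) (hπ : π.ker = L.fixingSubgroup)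
    {R : ↥S → Type} [∀ q, Fintype (R q)]
    (hR : ∀ q : ↥S, Fintype.card (R q) = (primesAbove (q.1 : ℕ) L).card)
    (hker' : ∀ q : ↥S, ∃ V ∈ (pullLevels (ExtCitation.primeLocalToGlobal q.1)).levels,
      V ≤ (π.comp (ExtCitation.primeLocalToGlobal q.1)).ker)
    (M : ∀ q : ↥S, R q → Rep.{0} (ZMod (p : ℕ)) ↥(π.comp (ExtCitation.primeLocalToGlobal q.1)).ker)
    (hρ : ∀ (q : ↥S) (ρ : R q) (h : ↥(π.comp (ExtCitation.primeLocalToGlobal q.1)).ker)
      (m : M q ρ), (M q ρ).ρ h m = m)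
    (hM : ∀ (q : ↥S) (ρ : R q), finrank (ZMod (p : ℕ)) (M q ρ) = 1) :
    ∑ q : ↥S, ∑ ρ : R q, finrank (ZMod (p : ℕ))
        ((kerLevels (pullLevels (ExtCitation.primeLocalToGlobal q.1)) (hker' q)).H1 (M q ρ)) ≤
      2 * ((primesAboveSet L S).card + InfinitePlace.nrComplexPlaces L) := by
  classical
  have hζ' : IsPrimitiveRoot (⟨ζ, hζL⟩ : L) (p : ℕ) :=
    IsPrimitiveRoot.of_map_of_injective (f := L.val) (by simpa using hζ) L.val.injective
  rw [← count L S p hpS hp2 hζ', ← Finset.sum_coe_sort S]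
  refine Finset.sum_le_sum fun q _ => ?_
  have h1 : ∀ ρ : R q, finrank (ZMod (p : ℕ))
      ((kerLevels (pullLevels (ExtCitation.primeLocalToGlobal q.1)) (hker' q)).H1 (M q ρ)) ≤
      2 + if q.1 = p then locDeg (q.1 : ℕ) L else 0 := by
    intro ρ
    have h2 := (finrank_localH1_le (p : ℕ) q.1 L hζ hζL π hπ (hker' q) (M q ρ) (hρ q ρ)
      (hM q ρ)).2
    have h3 : ((p : ℕ) = (q.1 : ℕ)) ↔ q.1 = p := by
      rw [eq_comm]; exact Subtype.ext_iff.symm
    simpa only [h3] using h2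
  calc ∑ ρ : R q, finrank (ZMod (p : ℕ))
        ((kerLevels (pullLevels (ExtCitation.primeLocalToGlobal q.1)) (hker' q)).H1 (M q ρ))
      ≤ ∑ _ρ : R q, (2 + if q.1 = p then locDeg (q.1 : ℕ) L else 0) :=
        Finset.sum_le_sum fun ρ _ => h1 ρ
    _ = (primesAbove (q.1 : ℕ) L).card * (2 + if q.1 = p then locDeg (q.1 : ℕ) L else 0) := by
        rw [Finset.sum_const, Finset.card_univ, hR q, smul_eq_mul]

/-- **`hW` in the literal vocabulary of the count wire**: level `U = Gal(ℚ̄/L)` on which the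
contract's `mu p` is trivial, `π = QuotientGroup.mk' U`, places = orbit representatives `(τ q).R`
of `ShapiroLevel32.OrbSect`, coefficients `ShapiroLevel32.triv (ZMod p) _`. -/
theorem sum_finrank_localH1_triv_le (hpS : p ∈ S) (hp2 : 2 < (p : ℕ))
    (U : Subgroup GQ) [U.Normal] (hU : U = L.fixingSubgroup)
    (hmu : ∀ s ∈ U, (Contract34.mu (p : ℕ)).ρ s = 1)
    (τ : ∀ q : ↥S, OrbSect ((QuotientGroup.mk' U).comp (ExtCitation.primeLocalToGlobal q.1)))
    [∀ q, Fintype (τ q).R]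
    (hker' : ∀ q : ↥S, ∃ V ∈ (pullLevels (ExtCitation.primeLocalToGlobal q.1)).levels,
      V ≤ ((QuotientGroup.mk' U).comp (ExtCitation.primeLocalToGlobal q.1)).ker) :
    ∑ q : ↥S, ∑ _ρ : (τ q).R, finrank (ZMod (p : ℕ))
        ((kerLevels (pullLevels (ExtCitation.primeLocalToGlobal q.1)) (hker' q)).H1
          (triv (ZMod (p : ℕ))
            ↥((QuotientGroup.mk' U).comp (ExtCitation.primeLocalToGlobal q.1)).ker)) ≤
      2 * ((primesAboveSet L S).card + InfinitePlace.nrComplexPlaces L) := by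
  haveI : NeZero (((p : ℕ) : ℕ) : Qbar) := ⟨by exact_mod_cast p.2.ne_zero⟩
  obtain ⟨ζ, hζ⟩ := HasEnoughRootsOfUnity.exists_primitiveRoot Qbar (p : ℕ)
  have hζL : ζ ∈ L := zeta_mem_of_mu_trivial (p : ℕ) L hζ.pow_eq_one (hU ▸ hmu)
  refine sum_finrank_localH1_le S p L hpS hp2 hζ hζL (QuotientGroup.mk' U)
    (by rw [QuotientGroup.ker_mk', hU]) (R := fun q => (τ q).R) (fun q => ?_) hker'
    (fun q _ => triv (ZMod (p : ℕ))
      ↥((QuotientGroup.mk' U).comp (ExtCitation.primeLocalToGlobal q.1)).ker)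
    (fun _ _ _ _ => rfl) (fun _ _ => Module.finrank_self _)
  rw [← Nat.card_eq_fintype_card]
  exact card_orbReps q.1 L U hU (τ q)

end Sum

end Fermat.Agent.S55.PlaceCount50
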