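/-
S55 / leaf 47h-LOC-H1-COUNT (helper50), file 3: the fields `finLoc` and `hW` of
`CountWire23.CanonInputs` / `CountWire23.LevelInputs` (helper23's literal P7' wire), LITERALLY.
-/
import Fermat.Agent.S55.PlaceCount50.LocH1Sum
import Fermat.Agent.S55.CountWire23.Canon

set_option autoImplicit false
set_option linter.unusedSectionVars false
set_option linter.style.haveILetI false

open IsDedekindDomain NumberField

noncomputable section

namespace Fermat.Agent.S55.PlaceCount50

open Fermat.Agent.S55.Idele73.Basic Fermat.Agent.S55.Idele73.Local Fermat.Agent.S55.ProfinLoc80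
open Fermat.Agent.S55.Profin15 Fermat.Agent.S55.ShapiroLevel32 Fermat.Agent.S55.ShaTransport84
open Fermat.Agent.S55.CountWire23 Module ExtCitation

attribute [local instance] factPrime

variable (p : ℕ) [hp : Fact p.Prime] (S : Finset Nat.Primes) (U : Subgroup GQ) [U.Normal]
  (hU : U ∈ (globalLevels S).levels)

/-- the canonical index set at `q` counts the primes of `𝓞 L` above `q`. -/
theorem card_canonJ (L : IntermediateField ℚ Qbar) [FiniteDimensional ℚ L] [Normal ℚ L]
    (hUL : U = L.fixingSubgroup) (q : ↥S) :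
    Nat.card (canonJ S U q) = (primesAbove (q.1 : ℕ) L).card := by
  subst hUL
  show Nat.card ((GQ ⧸ L.fixingSubgroup) ⧸
    ((QuotientGroup.mk' L.fixingSubgroup).comp (primeLocalToGlobal q.1)).range) = _
  rw [← PlaceCount88.card_doubleCoset_range_eq, card_doubleCoset_primeLocal]

/-- **field (1) `finLoc`** of `CountWire23.LevelInputs` / `CanonInputs` (any index family `J`). -/
theorem finLoc_of_mu {J : ↥S → Type} (hmu : ∀ s ∈ U, (Contract34.mu p).ρ s = 1)
    (w : Σ q : ↥S, J q) :
    Module.Finite (ZMod p) ((locLevels S U hU w).H1 (kLoc p S U w)) := by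
  obtain ⟨L, hfin, -, -, hUL⟩ := exists_field_of_mem_globalLevels hU
  haveI := hfin
  haveI : NeZero ((p : ℕ) : Qbar) := ⟨by exact_mod_cast hp.out.ne_zero⟩
  obtain ⟨ζ, hζ⟩ := HasEnoughRootsOfUnity.exists_primitiveRoot Qbar p
  have hζL : ζ ∈ L := zeta_mem_of_mu_trivial p L hζ.pow_eq_one (hUL ▸ hmu)
  exact (finrank_localH1_le p w.1.1 L hζ hζL (QuotientGroup.mk' U)
    (by rw [QuotientGroup.ker_mk', hUL]) (hker_comp (hrS S w.1) (hker_mk' hU))
    (kLoc p S U w) (fun _ _ => rfl) (Module.finrank_self _)).1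

/-- **field (4) `hW`** of `CountWire23.CanonInputs`, with
`s = #{primes of 𝓞 L above S} + r₂(L)`, `L` any finite normal field with `U = Gal(ℚ̄/L)`. -/
theorem hW_canon (hpS : pPrime p ∈ S) (hp2 : p ≠ 2) (L : IntermediateField ℚ Qbar)
    [FiniteDimensional ℚ L] [Normal ℚ L] (hUL : U = L.fixingSubgroup)
    (hmu : ∀ s ∈ U, (Contract34.mu p).ρ s = 1) [hF : Fintype (Σ q : ↥S, canonJ S U q)] :
    ∑ w : Σ q : ↥S, canonJ S U q,
        finrank (ZMod p) ((locLevels S U hU w).H1 (kLoc p S U w)) ≤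
      2 * ((primesAboveSet L S).card + InfinitePlace.nrComplexPlaces L) := by
  classical
  haveI : Finite (GQ ⧸ U) := by
    haveI := (globalLevels S).finiteIndex U hU
    exact Subgroup.finite_quotient_of_finiteIndex
  letI : ∀ q : ↥S, Fintype (canonJ S U q) := fun q => Fintype.ofFinite _
  have hFe : hF = Sigma.instFintype := Subsingleton.elim _ _
  subst hFe
  rw [Fintype.sum_sigma]
  haveI : NeZero ((p : ℕ) : Qbar) := ⟨by exact_mod_cast hp.out.ne_zero⟩
  obtain ⟨ζ, hζ⟩ := HasEnoughRootsOfUnity.exists_primitiveRoot Qbar p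
  have hζL : ζ ∈ L := zeta_mem_of_mu_trivial p L hζ.pow_eq_one (hUL ▸ hmu)
  have hp2' : 2 < ((pPrime p : Nat.Primes) : ℕ) :=
    lt_of_le_of_ne hp.out.two_le (Ne.symm hp2)
  exact sum_finrank_localH1_le S (pPrime p) L hpS hp2' (ζ := ζ) hζ hζL (QuotientGroup.mk' U)
    (by rw [QuotientGroup.ker_mk', hUL]) (R := fun q => canonJ S U q)
    (fun q => by rw [← Nat.card_eq_fintype_card]; exact card_canonJ S U L hUL q)
    (fun q => hker_comp (hrS S q) (hker_mk' hU))
    (fun q j => kLoc p S U (⟨q, j⟩ : Σ q : ↥S, canonJ S U q))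
    (fun _ _ _ _ => rfl) (fun _ _ => Module.finrank_self _)

end Fermat.Agent.S55.PlaceCount50
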