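/-
S55 / leaf 47h-LOC-H1-COUNT (helper50), file 4: the field `hW` of `CountWire23.LevelInputs` for an
ARBITRARY index family `J` (with `#J q = #{primes above q}`) and an arbitrary description `T` of the
primes above `S` — the literal shape consumed by `S2Count92.levelInputs_of_hsha` (helper92).
-/
import Fermat.Agent.S55.PlaceCount50.CanonFields

set_option autoImplicit false
set_option linter.unusedSectionVars false
set_option linter.style.haveILetI false

open IsDedekindDomain NumberField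

noncomputable section

namespace Fermat.Agent.S55.PlaceCount50

open Fermat.Agent.S55.Idele73.Basic Fermat.Agent.S55.Idele73.Local Fermat.Agent.S55.ProfinLoc80
open Fermat.Agent.S55.Profin15 Fermat.Agent.S55.ShapiroLevel32 Fermat.Agent.S55.ShaTransport84
open Fermat.Agent.S55.CountWire23 Module ExtCitation

attribute [local instance] factPrime

variable (p : ℕ) [hp : Fact p.Prime] (S : Finset Nat.Primes) (U : Subgroup GQ) [U.Normal]
  (hU : U ∈ (globalLevels S).levels)

/-- a finset described as "the primes above `S`" is `primesAboveSet L S`. -/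
theorem eq_primesAboveSet (L : IntermediateField ℚ Qbar) [FiniteDimensional ℚ L] [Normal ℚ L]
    (T : Finset (HeightOneSpectrum (𝓞 L)))
    (hT : ∀ v, v ∈ T ↔ ∃ q ∈ S, (((q : Nat.Primes) : ℕ) : 𝓞 L) ∈ v.asIdeal) :
    T = primesAboveSet L S := by
  ext v
  rw [hT, mem_primesAboveSet_iff]

/-- **field `hW` of `CountWire23.LevelInputs`**, any index family `J` with
`#J q = #{primes of 𝓞 L above q}`, any `T` = primes above `S`. -/
theorem hW_of_card (hpS : pPrime p ∈ S) (hp2 : p ≠ 2) (L : IntermediateField ℚ Qbar)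
    [FiniteDimensional ℚ L] [Normal ℚ L] (hUL : U = L.fixingSubgroup)
    (hmu : ∀ s ∈ U, (Contract34.mu p).ρ s = 1)
    (T : Finset (HeightOneSpectrum (𝓞 L)))
    (hT : ∀ v, v ∈ T ↔ ∃ q ∈ S, (((q : Nat.Primes) : ℕ) : 𝓞 L) ∈ v.asIdeal)
    {J : ↥S → Type} [hF : Fintype (Σ q : ↥S, J q)]
    (hJ : ∀ q : ↥S, Nat.card (J q) = (primesAbove (q.1 : ℕ) L).card) :
    ∑ w : Σ q : ↥S, J q,
        finrank (ZMod p) ((locLevels S U hU w).H1 (kLoc p S U w)) ≤
      2 * (T.card + InfinitePlace.nrComplexPlaces L) := by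
  classical
  rw [eq_primesAboveSet S L T hT]
  haveI : ∀ q : ↥S, Finite (J q) := fun q =>
    Finite.of_injective (fun j : J q => (⟨q, j⟩ : Σ q : ↥S, J q)) (fun a b h => by
      simpa using h)
  letI : ∀ q : ↥S, Fintype (J q) := fun q => Fintype.ofFinite _
  have hFe : hF = Sigma.instFintype := Subsingleton.elim _ _
  subst hFe
  rw [Fintype.sum_sigma]
  haveI : NeZero ((p : ℕ) : Qbar) := ⟨by exact_mod_cast hp.out.ne_zero⟩
  obtain ⟨ζ, hζ⟩ := HasEnoughRootsOfUnity.exists_primitiveRoot Qbar p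
  have hζL : ζ ∈ L := zeta_mem_of_mu_trivial p L hζ.pow_eq_one (hUL ▸ hmu)
  have hp2' : 2 < ((pPrime p : Nat.Primes) : ℕ) :=
    lt_of_le_of_ne hp.out.two_le (Ne.symm hp2)
  exact sum_finrank_localH1_le S (pPrime p) L hpS hp2' (ζ := ζ) hζ hζL (QuotientGroup.mk' U)
    (by rw [QuotientGroup.ker_mk', hUL]) (R := J)
    (fun q => by rw [← Nat.card_eq_fintype_card]; exact hJ q)
    (fun q => hker_comp (hrS S q) (hker_mk' hU))
    (fun q j => kLoc p S U (⟨q, j⟩ : Σ q : ↥S, J q))
    (fun _ _ _ _ => rfl) (fun _ _ => Module.finrank_self _)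

end Fermat.Agent.S55.PlaceCount50
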