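/-
S55 / 47d-PLACE-COUNT (helper50): adapter between `PlaceCount50.Dict` (primes above `q` of a GALOIS
level `L` as `primeAt q L g`, `g ∈ Gal(L/ℚ)`) and helper58's `PlaceDict58` (`placeOf q L σ`,
`σ : L →ₐ[ℚ] ℚ̄`): the orbit hypothesis `PlaceDict58.OrbitHyp L` holds for every finite normal `L`.
Complete proofs.
-/
import Mathlib
import Fermat.Agent.S55.PlaceCount50.Dict
import Fermat.Agent.S55.PlaceDict58

set_option autoImplicit false

open IsDedekindDomain NumberField

noncomputable section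

namespace Fermat.Agent.S55.PlaceCount50

open Fermat.Agent.S55.Idele73.Basic

variable (q : ℕ) [Fact q.Prime] (L : IntermediateField ℚ Qbar) [FiniteDimensional ℚ L]

/-- the embedding `x ↦ g x` of `L` into `ℚ̄` attached to `g ∈ Gal(L/ℚ)`. -/
def sigmaOf (g : GalL L) : L →ₐ[ℚ] Qbar := L.val.comp (g : L →ₐ[ℚ] L)

omit [FiniteDimensional ℚ L] in
lemma sigmaOf_apply (g : GalL L) (x : L) : sigmaOf L g x = ((g x : L) : Qbar) := rfl

/-- helper58's `placeOf` at the embedding `g` is `primeAt q L g`. -/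
theorem placeOf_sigmaOf (g : GalL L) :
    PlaceDict58.placeOf q L (sigmaOf L g) = primeAt q L g := by
  apply HeightOneSpectrum.ext
  apply Ideal.ext
  intro x
  rw [PlaceDict58.mem_placeOf_iff, mem_primeAt_iff]
  rfl

omit [FiniteDimensional ℚ L] in
/-- helper58's norm at the embedding `g` is `‖ι (g x)‖`. -/
theorem nrm_sigmaOf (g : GalL L) (x : L) :
    PlaceDict58.nrm q L (sigmaOf L g) x = ‖emb q L (g x)‖ := rfl

/-- **the orbit hypothesis of `PlaceDict58` for a finite normal level** (Galois transitivity). -/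
theorem orbitHyp_of_normal [Normal ℚ L] : PlaceDict58.OrbitHyp L := by
  intro ℓ _ v hv
  obtain ⟨g, hg⟩ := exists_primeAt_eq ℓ L v hv
  exact ⟨sigmaOf L g, (placeOf_sigmaOf ℓ L g).trans hg⟩

/-- S-unit dictionary of `PlaceDict58` (P5) without hypothesis, for a finite normal level. -/
theorem forall_nrm_eq_one_iff_of_normal [Normal ℚ L] (S : Finset Nat.Primes) (x : L) :
    (∀ ℓ : Nat.Primes, ℓ ∉ S → ∀ σ : L →ₐ[ℚ] Qbar,
        haveI : Fact (ℓ : ℕ).Prime := ⟨ℓ.2⟩; PlaceDict58.nrm (ℓ : ℕ) L σ x = 1) ↔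
      ∀ v : HeightOneSpectrum (𝓞 L), (∀ ℓ ∈ S, ((ℓ : ℕ) : 𝓞 L) ∉ v.asIdeal) →
        v.valuation L x = 1 :=
  PlaceDict58.forall_nrm_eq_one_iff L (orbitHyp_of_normal L) S x

end Fermat.Agent.S55.PlaceCount50
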