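/-
S55 / P7 count wire, SEAM TEST as a theorem (helper50): `CountWire23.LevelInputs` at a level `U`
from ONLY the two arithmetic inputs still open —

* (R)  `hrec` : reciprocity at the level `U` for INJECTIVE functionals `Λ_w` on `H²(G_{L_w}, 𝔽_p)`,
* (S1) `hsha` : `Ш²(U) ⊆ range δ₁` (kernel half of (S1) at the level `U`),

everything else being discharged by landed theorems: `finH1` (helper23 `finH1_levU`), `finLoc` and
`hW` (helper50 `finLoc_of_mu`, `hW_of_card`), `hnd` (helper47 `HndLit.locForm_separatingLeft` +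
helper21), `hB`/`finSha₂`/`hQ` (helper92 `levelInputs_of_hsha`), `L ≤ Q_S` (`ESDiv20.le_QS`).
Spare of helper23's final assembly: use whichever lands first.
-/
import Fermat.Agent.S55.PlaceCount50.LevelFields
import Fermat.Agent.S55.S2Count92.LevelInputs92
import Fermat.Agent.S55.LevelCup47.HndLit

set_option autoImplicit false
set_option linter.unusedSectionVars false

open NumberField IsDedekindDomain Module ExtCitation

noncomputable section

namespace Fermat.Agent.S55.PlaceCount50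

open Fermat.Agent.S55.Profin15 Fermat.Agent.S55.ShapiroLevel32 Fermat.Agent.S55.ShaTransport84
open Fermat.Agent.S55.CountWire23
open Fermat.Agent.S55.S2Count92 (levelInputs_of_hsha kummerδ₁U)
open Fermat.Agent.S55.ESDiv20 (QS le_QS)
open Fermat.Agent.Lib.FrobeniusExists (Qb GQ)

attribute [local instance] factPrime

variable {p : ℕ} [Fact p.Prime] {S : Finset Nat.Primes} {U : Subgroup GQ} [U.Normal]
  (hU : U ∈ (globalLevels S).levels) (hpS : pPrime p ∈ S) (ζ : Qbˣ)
  (hζ : IsPrimitiveRoot ζ p) (hmu : ∀ s ∈ U, (Contract34.mu p).ρ s = 1)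

/-- `LevelInputs` for ANY covering family `(J, t)` with `#J q = #{primes above q}` from (R) + (S1). -/
theorem levelInputs_of_rec_sha (hp2 : p ≠ 2) {J : ↥S → Type} [Fintype (Σ q : ↥S, J q)]
    (t : ∀ q : ↥S, J q → GQ)
    (hcov : ∀ q : ↥S, Covers (QuotientGroup.mk' U) (rS S) t q)
    (L : IntermediateField ℚ Qb) [FiniteDimensional ℚ L] [Normal ℚ L]
    (hUL : U = L.fixingSubgroup) (hL : L.IsUnramifiedOutside S)
    (hJ : ∀ q : ↥S, Nat.card (J q) = (primesAbove (q.1 : ℕ) L).card)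
    (Λ : ∀ w : Σ q : ↥S, J q, (locLevels S U hU w).H2 (kLoc p S U w) →ₗ[ZMod p] ZMod p)
    (hΛ : ∀ w, Function.Injective (Λ w))
    (hrec : ∀ z : (levU S U hU).H2 (kU p U),
      ∑ w : Σ q : ↥S, J q, Λ w (locRes₂ p S U hU t w z) = 0)
    (hsha : ∀ x ∈ USha₂ (k := ZMod p) (hrS S) (hker_mk' hU) t,
      ∃ a, kummerδ₁U hU hpS ζ hζ hmu a = x) :
    LevelInputs p S U hU t :=
  levelInputs_of_hsha hU hpS ζ hζ hmu t hcov (finH1_levU U hU)
    (fun w => finLoc_of_mu p S U hU hmu w) L hUL (le_QS hL) (primesAboveSet L S)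
    (mem_primesAboveSet_iff L S) hp2 Λ
    (fun w => LevelCup47.HndLit.locForm_separatingLeft U hU hmu w (Λ w) (hΛ w))
    hrec
    (hW_of_card p S U hU hpS hp2 L hUL hmu (primesAboveSet L S) (mem_primesAboveSet_iff L S) hJ)
    hsha

/-- the same for the canonical family of `CountWire23.Canon` (no `hcov`, no `hJ`, no `L`). -/
theorem canonLevelInputs_of_rec_sha (hp2 : p ≠ 2) [Fintype (Σ q : ↥S, canonJ S U q)]
    (Λ : ∀ w : Σ q : ↥S, canonJ S U q,
      (locLevels S U hU w).H2 (kLoc p S U w) →ₗ[ZMod p] ZMod p)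
    (hΛ : ∀ w, Function.Injective (Λ w))
    (hrec : ∀ z : (levU S U hU).H2 (kU p U),
      ∑ w : Σ q : ↥S, canonJ S U q, Λ w (locRes₂ p S U hU (canonT' S U) w z) = 0)
    (hsha : ∀ x ∈ USha₂ (k := ZMod p) (hrS S) (hker_mk' hU) (canonT' S U),
      ∃ a, kummerδ₁U hU hpS ζ hζ hmu a = x) :
    LevelInputs p S U hU (canonT' S U) := by
  obtain ⟨L, hfin, hnor, hL, hUL⟩ := exists_field_of_mem_globalLevels hU
  haveI := hfin
  haveI := hnor
  exact levelInputs_of_rec_sha hU hpS ζ hζ hmu hp2 (canonT' S U)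
    (fun q => covers_canonT (QuotientGroup.mk'_surjective U) (rS S) q) L hUL hL
    (fun q => card_canonJ S U L hUL q) Λ hΛ hrec hsha

end Fermat.Agent.S55.PlaceCount50
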